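import Fermat.Agent.LT.A2.H416.LocalW

/-!
# Row LT, tower A2, leaf A2.03.7 WHIT-MEAN (helper416): the orbital integrand at a complex place

OFF-MAIN.
* `gauss_actV416`: the Gaussian of `IsStd.cpx` at the vector `M · (s e₁)` is
  `exp(-2π|c| |s|² (|λ₁|² + |λ₂|²))`, `λ_i` the split coordinates of the complex matrix of `M`;
* `orbI_rel416`: the relation between the orbital integrands at `m' m`, `s` and at `m`, `s'`
  (`tor1` + `cpx`), `m'` in `T¹` supported at `w`;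
* `exists_adm_triv416`: an admissible partner trivial at `w`;
* `exists_rot416`: the rotation elements of `T¹(ℂ_w)`, in the kernel of `χT`;
* `inGPlus_of_mul_locInfComplex416`.
-/

set_option autoImplicit false
set_option linter.unusedSectionVars false
set_option linter.style.haveILetI false
open IsDedekindDomain NumberField AutomorphicForm MeasureTheory
open scoped MatrixGroups Topology Classical
noncomputable section
namespace Fermat.Agent.LT.A2.H416
open Fermat.Agent.LT.H130 Fermat.Agent.LT.H556 Fermat.Agent.LT.A2 Fermat.Agent.LT.H470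
open Fermat.Agent.LT.T8.H864 Fermat.Agent.LT.H556.T0 Fermat.Agent.LT.A2.H971

variable {K : Type} [Field K] [NumberField K]

/-! ## The vector `M · (a e₁)` -/

/-- The vector `a e₁`, `a` the idele `s` at the complex place `w`. -/
def vecE {w : InfinitePlace K} (hw : w.IsComplex) (s : ℂˣ) : A0.Adl K × A0.Adl K :=
  (cIdl hw s : A0.Adl K) • ((1 : A0.Adl K), (0 : A0.Adl K))

theorem actV_vecE_fst {w : InfinitePlace K} (hw : w.IsComplex) (M : A0.G K) (s : ℂˣ) :
    (actV M (vecE hw s)).1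
      = (M : Matrix (Fin 2) (Fin 2) (A0.Adl K)) 0 0 * locAdlHom w (cplxHom hw (s : ℂ)) := by
  simp [actV, vecE, coe_cIdl]

theorem actV_vecE_snd {w : InfinitePlace K} (hw : w.IsComplex) (M : A0.G K) (s : ℂˣ) :
    (actV M (vecE hw s)).2
      = (M : Matrix (Fin 2) (Fin 2) (A0.Adl K)) 1 0 * locAdlHom w (cplxHom hw (s : ℂ)) := by
  simp [actV, vecE, coe_cIdl]

theorem ext_actV_vecE_fst {w : InfinitePlace K} (hw : w.IsComplex) (M : A0.G K) (s : ℂˣ) :
    InfinitePlace.Completion.extensionEmbedding w ((actV M (vecE hw s)).1.1 w)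
      = A0.infComp w M 0 0 * (s : ℂ) := by
  rw [actV_vecE_fst]
  show InfinitePlace.Completion.extensionEmbedding w
      (((M : Matrix (Fin 2) (Fin 2) (A0.Adl K)) 0 0).1 w
        * (locAdlHom w (cplxHom hw (s : ℂ))).1 w) = _
  rw [map_mul, locAdlHom_fst_self, extensionEmbedding_cplxHom]
  rfl

theorem ext_actV_vecE_snd {w : InfinitePlace K} (hw : w.IsComplex) (M : A0.G K) (s : ℂˣ) :
    InfinitePlace.Completion.extensionEmbedding w ((actV M (vecE hw s)).2.1 w)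
      = A0.infComp w M 1 0 * (s : ℂ) := by
  rw [actV_vecE_snd]
  show InfinitePlace.Completion.extensionEmbedding w
      (((M : Matrix (Fin 2) (Fin 2) (A0.Adl K)) 1 0).1 w
        * (locAdlHom w (cplxHom hw (s : ℂ))).1 w) = _
  rw [map_mul, locAdlHom_fst_self, extensionEmbedding_cplxHom]
  rfl

/-- The sum of the squares of the split coordinates of the complex matrix `N`. -/
def splitS (ω₁ ω₂ : ℂ) (N : Matrix (Fin 2) (Fin 2) ℂ) : ℝ :=
  ‖lam ω₁ N‖ ^ 2 + ‖lam ω₂ N‖ ^ 2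

/-- **The Gaussian** at the vector `M · (s e₁)`. -/
theorem gauss_actV416 {w : InfinitePlace K} (hw : w.IsComplex) (c ω₁ ω₂ : ℂ) (M : A0.G K)
    (s : ℂˣ) :
    WL.gauss w c ω₁ ω₂ (actV M (vecE hw s))
      = Complex.exp (-((2 * Real.pi * ‖c‖ * (‖(s : ℂ)‖ ^ 2 * splitS ω₁ ω₂ (A0.infComp w M)) : ℝ)
          : ℂ)) := by
  unfold WL.gauss
  rw [ext_actV_vecE_fst, ext_actV_vecE_snd]
  congr 3
  have h1 : A0.infComp w M 0 0 * (s : ℂ) + ω₁ * (A0.infComp w M 1 0 * (s : ℂ))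
      = (s : ℂ) * lam ω₁ (A0.infComp w M) := by
    unfold lam; ring
  have h2 : A0.infComp w M 0 0 * (s : ℂ) + ω₂ * (A0.infComp w M 1 0 * (s : ℂ))
      = (s : ℂ) * lam ω₂ (A0.infComp w M) := by
    unfold lam; ring
  rw [h1, h2, norm_mul, norm_mul]
  unfold splitS
  ring

/-- Vectors `M (s e₁)`, `M' (s' e₁)` with `M`, `M'` equal off `w` agree off `w`. -/
theorem agreeOff_actV416 {w : InfinitePlace K} (hw : w.IsComplex) {M M' : A0.G K}
    (hinf : ∀ w' : InfinitePlace K, w' ≠ w → infCompHom w' M = infCompHom w' M')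
    (hfin : ∀ v : HeightOneSpectrum (𝓞 K), finCompHom v M = finCompHom v M') (s s' : ℂˣ) :
    WL.AgreeOffInf w (actV M (vecE hw s)) (actV M' (vecE hw s')) := by
  have hI : ∀ (w' : InfinitePlace K), w' ≠ w → ∀ i j : Fin 2,
      ((M : Matrix (Fin 2) (Fin 2) (A0.Adl K)) i j).1 w'
        = ((M' : Matrix (Fin 2) (Fin 2) (A0.Adl K)) i j).1 w' := by
    intro w' h i j
    have := congrArg (fun x : GL (Fin 2) w'.Completion =>
      (x : Matrix (Fin 2) (Fin 2) w'.Completion) i j) (hinf w' h)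
    exact this
  have hF : ∀ (v : HeightOneSpectrum (𝓞 K)) (i j : Fin 2),
      ((M : Matrix (Fin 2) (Fin 2) (A0.Adl K)) i j).2 v
        = ((M' : Matrix (Fin 2) (Fin 2) (A0.Adl K)) i j).2 v := by
    intro v i j
    have := congrArg (fun x : GL (Fin 2) (v.adicCompletion K) =>
      (x : Matrix (Fin 2) (Fin 2) (v.adicCompletion K)) i j) (hfin v)
    exact this
  refine ⟨fun w' h => ⟨?_, ?_⟩, fun v => ⟨?_, ?_⟩⟩
  · rw [actV_vecE_fst, actV_vecE_fst]
    show ((M : Matrix (Fin 2) (Fin 2) (A0.Adl K)) 0 0).1 w' * (locAdlHom w _).1 w'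
      = ((M' : Matrix (Fin 2) (Fin 2) (A0.Adl K)) 0 0).1 w' * (locAdlHom w _).1 w'
    rw [locAdlHom_fst_of_ne h, locAdlHom_fst_of_ne h, hI w' h]
  · rw [actV_vecE_snd, actV_vecE_snd]
    show ((M : Matrix (Fin 2) (Fin 2) (A0.Adl K)) 1 0).1 w' * (locAdlHom w _).1 w'
      = ((M' : Matrix (Fin 2) (Fin 2) (A0.Adl K)) 1 0).1 w' * (locAdlHom w _).1 w'
    rw [locAdlHom_fst_of_ne h, locAdlHom_fst_of_ne h, hI w' h]
  · rw [actV_vecE_fst, actV_vecE_fst]
    show ((M : Matrix (Fin 2) (Fin 2) (A0.Adl K)) 0 0).2 v * (locAdlHom w _).2 v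
      = ((M' : Matrix (Fin 2) (Fin 2) (A0.Adl K)) 0 0).2 v * (locAdlHom w _).2 v
    rw [hF v, locAdlHom_snd, locAdlHom_snd]
  · rw [actV_vecE_snd, actV_vecE_snd]
    show ((M : Matrix (Fin 2) (Fin 2) (A0.Adl K)) 1 0).2 v * (locAdlHom w _).2 v
      = ((M' : Matrix (Fin 2) (Fin 2) (A0.Adl K)) 1 0).2 v * (locAdlHom w _).2 v
    rw [hF v, locAdlHom_snd, locAdlHom_snd]


/-! ## The relation between the orbital integrands (`tor1` and `cpx`) -/

/-- The conclusion of `IsStd.cpx` at the place `w`, for the constant `c` and the roots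
`ω₁`, `ω₂`. -/
def CpxAt (D : KData K) (w : InfinitePlace K) (c ω₁ ω₂ : ℂ) : Prop :=
  ∀ g m : A0.G K, Adm D.t D.n g m → A0.TrivAtInf w g → A0.TrivAtInf w m →
    ∀ ξ ξ' : A0.Adl K × A0.Adl K, WL.AgreeOffInf w ξ ξ' →
      D.F g m ξ * WL.gauss w c ω₁ ω₂ ξ' = D.F g m ξ' * WL.gauss w c ω₁ ω₂ ξ

/-- The orbital integrand at the vector `s e₁`. -/
def orbI (D : KData K) {w : InfinitePlace K} (hw : w.IsComplex) (g₀ m₁ : A0.G K) (s : ℂˣ)
    (m : A0.G K) : ℂ :=
  D.F g₀ (m * m₁) (vecE hw s) * D.χT (m * m₁)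

theorem orbI_rel416 (D : KData K) (hgood : D.Good) {w : InfinitePlace K} (hw : w.IsComplex)
    {c ω₁ ω₂ : ℂ} (hc : CpxAt D w c ω₁ ω₂) {g₀ m₁ : A0.G K} (hg₀ : A0.TrivAtInf w g₀)
    (hm₁ : A0.TrivAtInf w m₁) (hadm : Adm D.t D.n g₀ m₁) {m m' : A0.G K}
    (hm : InTorus1 D.t D.n m) (hm' : InTorus1 D.t D.n m') (hloc : A0.IsLocalAtInf w m')
    (s s' : ℂˣ) :
    orbI D hw g₀ m₁ s (m' * m) * WL.gauss w c ω₁ ω₂ (actV m⁻¹ (vecE hw s'))
      = orbI D hw g₀ m₁ s' m * D.χT m'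
          * WL.gauss w c ω₁ ω₂ (actV (m' * m)⁻¹ (vecE hw s)) := by
  unfold orbI
  have h1 := hgood.weil.tor1 (m' * m) (inTorus1_mul416 hm' hm) g₀ m₁ (vecE hw s) hadm
  have h2 := hgood.weil.tor1 m hm g₀ m₁ (vecE hw s') hadm
  have h3 : D.χT (m' * m * m₁) = D.χT m' * D.χT (m * m₁) := by
    rw [mul_assoc]
    exact hgood.torus.mul _ _ hm'.1 (inTorus_mul971 hm.1 hadm.1)
  have hagree : WL.AgreeOffInf w (actV (m' * m)⁻¹ (vecE hw s)) (actV m⁻¹ (vecE hw s')) := by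
    refine agreeOff_actV416 hw (fun w' h => ?_) (fun v => ?_) s s'
    · rw [map_inv, map_inv, map_mul, (trivAtInf_iff_hom w' m').1 (hloc.1 w' h), one_mul]
    · rw [map_inv, map_inv, map_mul, (trivAtFin_iff_hom v m').1 (hloc.2 v), one_mul]
  have h4 := hc g₀ m₁ hadm hg₀ hm₁ _ _ hagree
  rw [h1, h2, h3]
  linear_combination (D.χT m' * D.χT (m * m₁)) * h4

/-! ## Torus elements at the complex place -/

theorem algebraMap_fst_eq_cplxHom {w : InfinitePlace K} (hw : w.IsComplex) (x : K) :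
    (algebraMap K (A0.Adl K) x).1 w = cplxHom hw (w.embedding x) := by
  apply (InfinitePlace.Completion.extensionEmbedding w).injective
  rw [ext_algebraMap416, extensionEmbedding_cplxHom]

theorem isTorM_pow416 {R : Type*} [CommRing R] {t n : R} {M : Matrix (Fin 2) (Fin 2) R}
    (h : IsTorM t n M) (k : ℕ) : IsTorM t n (M ^ k) := by
  induction k with
  | zero => rw [pow_zero]; exact isTorM_one416 t n
  | succ k ih => rw [pow_succ]; exact isTorM_mul416 ih h

theorem lam_pow416 {R : Type*} [CommRing R] {t n ω : R} (hω : ω ^ 2 = t * ω - n)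
    {M : Matrix (Fin 2) (Fin 2) R} (h : IsTorM t n M) (k : ℕ) :
    lam ω (M ^ k) = lam ω M ^ k := by
  induction k with
  | zero => rw [pow_zero, pow_zero, lam_one416]
  | succ k ih => rw [pow_succ, pow_succ, lam_mul416 hω (isTorM_pow416 h k) h, ih]

/-- A torus matrix at `w` gives an element of the adelic torus supported at `w`. -/
theorem inTorus_locInf416 {t n : K} (w : InfinitePlace K) (X : GL (Fin 2) w.Completion)
    (hX : IsTorM ((algebraMap K (A0.Adl K) t).1 w) ((algebraMap K (A0.Adl K) n).1 w)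
      (X : Matrix (Fin 2) (Fin 2) w.Completion)) :
    InTorus t n (locInf w X : A0.G K) := by
  rw [inTorus_iff_isTorM416]
  obtain ⟨h1, h2⟩ := hX
  have e00 : ((locInf w X : A0.G K) : Matrix (Fin 2) (Fin 2) (A0.Adl K)) 0 0
      = locAdlHom w ((X : Matrix (Fin 2) (Fin 2) w.Completion) 0 0) := entry_diag_eq w 0 _
  have e11 : ((locInf w X : A0.G K) : Matrix (Fin 2) (Fin 2) (A0.Adl K)) 1 1
      = locAdlHom w ((X : Matrix (Fin 2) (Fin 2) w.Completion) 1 1) := entry_diag_eq w 1 _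
  have e01 : ((locInf w X : A0.G K) : Matrix (Fin 2) (Fin 2) (A0.Adl K)) 0 1
      = locAdd w ((X : Matrix (Fin 2) (Fin 2) w.Completion) 0 1) :=
    entry_off_eq w (by decide) _
  have e10 : ((locInf w X : A0.G K) : Matrix (Fin 2) (Fin 2) (A0.Adl K)) 1 0
      = locAdd w ((X : Matrix (Fin 2) (Fin 2) w.Completion) 1 0) :=
    entry_off_eq w (by decide) _
  constructor
  · rw [e01, e10]
    refine adl_ext (fun w' => ?_) (fun v => ?_)
    · show (locAdd w ((X : Matrix (Fin 2) (Fin 2) w.Completion) 0 1)).1 w'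
        = -((algebraMap K (A0.Adl K) n).1 w'
            * (locAdd w ((X : Matrix (Fin 2) (Fin 2) w.Completion) 1 0)).1 w')
      by_cases h : w' = w
      · subst h
        rw [locAdd_fst_self, locAdd_fst_self, h1]
      · rw [locAdd_fst_of_ne h, locAdd_fst_of_ne h, mul_zero, neg_zero]
    · show (locAdd w ((X : Matrix (Fin 2) (Fin 2) w.Completion) 0 1)).2 v
        = -((algebraMap K (A0.Adl K) n).2 v
            * (locAdd w ((X : Matrix (Fin 2) (Fin 2) w.Completion) 1 0)).2 v)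
      rw [locAdd_snd, locAdd_snd, mul_zero, neg_zero]
  · rw [e11, e00, e10]
    refine adl_ext (fun w' => ?_) (fun v => ?_)
    · show (locAdlHom w ((X : Matrix (Fin 2) (Fin 2) w.Completion) 1 1)).1 w'
        = (locAdlHom w ((X : Matrix (Fin 2) (Fin 2) w.Completion) 0 0)).1 w'
          + (algebraMap K (A0.Adl K) t).1 w'
            * (locAdd w ((X : Matrix (Fin 2) (Fin 2) w.Completion) 1 0)).1 w'
      by_cases h : w' = w
      · subst h
        rw [locAdlHom_fst_self, locAdlHom_fst_self, locAdd_fst_self, h2]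
      · rw [locAdlHom_fst_of_ne h, locAdlHom_fst_of_ne h, locAdd_fst_of_ne h, mul_zero, add_zero]
    · show (locAdlHom w ((X : Matrix (Fin 2) (Fin 2) w.Completion) 1 1)).2 v
        = (locAdlHom w ((X : Matrix (Fin 2) (Fin 2) w.Completion) 0 0)).2 v
          + (algebraMap K (A0.Adl K) t).2 v
            * (locAdd w ((X : Matrix (Fin 2) (Fin 2) w.Completion) 1 0)).2 v
      rw [locAdlHom_snd, locAdlHom_snd, locAdd_snd, mul_zero, add_zero]

/-- A complex torus matrix gives an element of the adelic torus supported at `w`. -/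
theorem inTorus_locInfComplex416 {t n : K} {w : InfinitePlace K} (hw : w.IsComplex)
    (M : GL (Fin 2) ℂ)
    (hM : IsTorM (w.embedding t) (w.embedding n) (M : Matrix (Fin 2) (Fin 2) ℂ)) :
    InTorus t n (locInfComplex hw M : A0.G K) := by
  refine inTorus_locInf416 w _ ?_
  obtain ⟨h1, h2⟩ := hM
  constructor
  · show cplxHom hw ((M : Matrix (Fin 2) (Fin 2) ℂ) 0 1)
      = -((algebraMap K (A0.Adl K) n).1 w * cplxHom hw ((M : Matrix (Fin 2) (Fin 2) ℂ) 1 0))
    rw [algebraMap_fst_eq_cplxHom hw, h1, map_neg, map_mul]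
  · show cplxHom hw ((M : Matrix (Fin 2) (Fin 2) ℂ) 1 1)
      = cplxHom hw ((M : Matrix (Fin 2) (Fin 2) ℂ) 0 0)
        + (algebraMap K (A0.Adl K) t).1 w * cplxHom hw ((M : Matrix (Fin 2) (Fin 2) ℂ) 1 0)
    rw [algebraMap_fst_eq_cplxHom hw, h2, map_add, map_mul]

/-- The component at `w` of an element of the torus is in the torus. -/
theorem inTorus_locInf_comp416 {t n : K} (w : InfinitePlace K) {m : A0.G K}
    (hm : InTorus t n m) : InTorus t n (locInf w (infCompHom w m) : A0.G K) := by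
  refine inTorus_locInf416 w _ ?_
  rw [inTorus_iff_isTorM416] at hm
  obtain ⟨h1, h2⟩ := hm
  constructor
  · show ((m : Matrix (Fin 2) (Fin 2) (A0.Adl K)) 0 1).1 w
      = -((algebraMap K (A0.Adl K) n).1 w * ((m : Matrix (Fin 2) (Fin 2) (A0.Adl K)) 1 0).1 w)
    rw [h1]; rfl
  · show ((m : Matrix (Fin 2) (Fin 2) (A0.Adl K)) 1 1).1 w
      = ((m : Matrix (Fin 2) (Fin 2) (A0.Adl K)) 0 0).1 w
        + (algebraMap K (A0.Adl K) t).1 w * ((m : Matrix (Fin 2) (Fin 2) (A0.Adl K)) 1 0).1 w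
    rw [h2]; rfl

/-- The determinant of the component at `w`. -/
theorem det_infCompHom416 (w : InfinitePlace K) (m : A0.G K) :
    ((infCompHom w m : GL (Fin 2) w.Completion) : Matrix (Fin 2) (Fin 2) w.Completion).det
      = ((Matrix.GeneralLinearGroup.det m : (A0.Adl K)ˣ) : A0.Adl K).1 w := by
  rw [Matrix.GeneralLinearGroup.val_det_apply, coe_infCompHom]
  exact ((evInf w).map_det _).symm

/-- An admissible partner trivial at `w` of an element trivial at `w`. -/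
theorem exists_adm_triv416 {t n : K} (w : InfinitePlace K) {g₀ m₀ : A0.G K}
    (hg₀ : A0.TrivAtInf w g₀) (hadm : Adm t n g₀ m₀) :
    ∃ m₁ : A0.G K, Adm t n g₀ m₁ ∧ A0.TrivAtInf w m₁ := by
  have hdet : Matrix.GeneralLinearGroup.det (locInf w (infCompHom w m₀) : A0.G K) = 1 := by
    rw [det_locInf]
    have h1 : Matrix.GeneralLinearGroup.det (infCompHom w m₀) = 1 := by
      refine Units.ext ?_
      rw [Matrix.GeneralLinearGroup.val_det_apply, det_infCompHom416, ← hadm.2,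
        ← det_infCompHom416, (trivAtInf_iff_hom w g₀).1 hg₀]
      simp
    rw [h1, map_one]
  have hT : InTorus1 t n (locInf w (infCompHom w m₀) : A0.G K) :=
    ⟨inTorus_locInf_comp416 w hadm.1, hdet⟩
  refine ⟨(locInf w (infCompHom w m₀))⁻¹ * m₀, adm_torus1_mul971 (inTorus1_inv416 hT) hadm, ?_⟩
  rw [trivAtInf_iff_hom, map_mul, map_inv, infCompHom_locInf_self, inv_mul_cancel]



/-! ## The rotation elements -/

/-- The complex torus matrix of split coordinates `(ρ⁻¹, ρ)`. -/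
def torC (t' n' ω₁ ω₂ : ℂ) (ρ : ℂ) : Matrix (Fin 2) (Fin 2) ℂ :=
  torMat t' n' (ρ⁻¹ - ω₁ * ((ρ⁻¹ - ρ) / (ω₁ - ω₂))) ((ρ⁻¹ - ρ) / (ω₁ - ω₂))

theorem lam_torC_one (t' n' : ℂ) {ω₁ ω₂ : ℂ} (ρ : ℂ) :
    lam ω₁ (torC t' n' ω₁ ω₂ ρ) = ρ⁻¹ := by
  simp [lam, torC, torMat]

theorem lam_torC_two (t' n' : ℂ) {ω₁ ω₂ : ℂ} (hne : ω₁ ≠ ω₂) (ρ : ℂ) :
    lam ω₂ (torC t' n' ω₁ ω₂ ρ) = ρ := by
  have h : ω₁ - ω₂ ≠ 0 := sub_ne_zero.2 hne
  have hB : (ω₁ - ω₂) * ((ρ⁻¹ - ρ) / (ω₁ - ω₂)) = ρ⁻¹ - ρ := mul_div_cancel₀ _ h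
  simp only [lam, torC, torMat, Matrix.of_apply, Matrix.cons_val', Matrix.cons_val_zero,
    Matrix.cons_val_one, Matrix.empty_val', Matrix.cons_val_fin_one]
  linear_combination (-1 : ℂ) * hB

theorem det_torC {t' n' ω₁ ω₂ : ℂ} (hs : ω₁ + ω₂ = t') (hp : ω₁ * ω₂ = n') (hne : ω₁ ≠ ω₂)
    {ρ : ℂ} (hρ : ρ ≠ 0) : (torC t' n' ω₁ ω₂ ρ).det = 1 := by
  have h := lam_mul_lam416 hs hp (M := torC t' n' ω₁ ω₂ ρ) (isTorM_torMat416 _ _ _ _)
  rw [← h, lam_torC_one, lam_torC_two _ _ hne, inv_mul_cancel₀ hρ]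

/-- **The rotation elements**: for `r > 0` there is an element of `T¹(𝔸_K)` supported at `w`, in
the kernel of `χT`, whose inverse has the split coordinates `(r⁻¹, r)` at `w`. -/
theorem exists_rot416 {t n : K} {χT : A0.G K → ℂ} (hχ : IsTorusChar t n χT)
    {w : InfinitePlace K} (hw : w.IsComplex) {ω₁ ω₂ : ℂ} (hs : ω₁ + ω₂ = w.embedding t)
    (hp : ω₁ * ω₂ = w.embedding n) (hne : ω₁ ≠ ω₂) {r : ℝ} (hr : 0 < r) :
    ∃ m' : A0.G K, InTorus1 t n m' ∧ A0.IsLocalAtInf w m' ∧ χT m' = 1 ∧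
      lam ω₁ (A0.infComp w m'⁻¹) = ((r⁻¹ : ℝ) : ℂ) ∧ lam ω₂ (A0.infComp w m'⁻¹) = ((r : ℝ) : ℂ) := by
  obtain ⟨k, hk, hpow⟩ := hχ.fin_order
  set ρ : ℝ := r ^ ((k : ℝ)⁻¹) with hρdef
  have hρ : 0 < ρ := Real.rpow_pos_of_pos hr _
  have hρk : ρ ^ k = r := Real.rpow_inv_natCast_pow hr.le hk.ne'
  have hρc : ((ρ : ℝ) : ℂ) ≠ 0 := Complex.ofReal_ne_zero.2 hρ.ne'
  have hdet : (torC (w.embedding t) (w.embedding n) ω₁ ω₂ (ρ : ℂ)).det = 1 :=
    det_torC hs hp hne hρc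
  set N : GL (Fin 2) ℂ := Matrix.GeneralLinearGroup.mkOfDetNeZero
    (torC (w.embedding t) (w.embedding n) ω₁ ω₂ (ρ : ℂ)) (by rw [hdet]; exact one_ne_zero)
    with hN
  have hNcoe : (N : Matrix (Fin 2) (Fin 2) ℂ)
      = torC (w.embedding t) (w.embedding n) ω₁ ω₂ (ρ : ℂ) := rfl
  have hNtor : IsTorM (w.embedding t) (w.embedding n) (N : Matrix (Fin 2) (Fin 2) ℂ) := by
    rw [hNcoe]; exact isTorM_torMat416 _ _ _ _
  have hT : InTorus1 t n (locInfComplex hw N : A0.G K) :=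
    ⟨inTorus_locInfComplex416 hw N hNtor,
      det_locInfComplex_of_det_one hw (by rw [hNcoe]; exact hdet)⟩
  have hω := sq_root416 hs hp
  refine ⟨((locInfComplex hw N : A0.G K) ^ k)⁻¹, inTorus1_inv416 (inTorus1_pow416 hT k), ?_, ?_,
    ?_, ?_⟩
  · rw [← map_pow, ← map_inv]
    exact isLocalAtInf_locInfComplex hw _
  · rw [← inv_pow, torusChar_pow416 hχ (inTorus_inv416 hT.1), hpow _ (inTorus_inv416 hT.1)]
  · rw [inv_inv, ← map_pow, infComp_locInfComplex, Units.val_pow_eq_pow_val,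
      lam_pow416 hω.1 hNtor, hNcoe, lam_torC_one, ← Complex.ofReal_inv, ← Complex.ofReal_pow,
      inv_pow, hρk]
  · rw [inv_inv, ← map_pow, infComp_locInfComplex, Units.val_pow_eq_pow_val,
      lam_pow416 hω.2 hNtor, hNcoe, lam_torC_two _ _ hne, ← Complex.ofReal_pow, hρk]

/-! ## `GL₂(𝔸_K)⁺` and the elements supported at a complex place -/

/-- Complex scalar matrices. -/
def scalC (σ : ℂˣ) : GL (Fin 2) ℂ :=
  ⟨Matrix.diagonal (fun _ => (σ : ℂ)), Matrix.diagonal (fun _ => ((σ⁻¹ : ℂˣ) : ℂ)), by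
      rw [Matrix.diagonal_mul_diagonal]; simp,
    by rw [Matrix.diagonal_mul_diagonal]; simp⟩

theorem coe_scalC (σ : ℂˣ) :
    ((scalC σ : GL (Fin 2) ℂ) : Matrix (Fin 2) (Fin 2) ℂ) = Matrix.diagonal (fun _ => (σ : ℂ)) :=
  rfl

theorem isTorM_scalC (t' n' : ℂ) (σ : ℂˣ) :
    IsTorM t' n' ((scalC σ : GL (Fin 2) ℂ) : Matrix (Fin 2) (Fin 2) ℂ) := by
  rw [coe_scalC]
  constructor <;> simp

theorem det_scalC (σ : ℂˣ) : Matrix.GeneralLinearGroup.det (scalC σ) = σ * σ := by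
  refine Units.ext ?_
  rw [Matrix.GeneralLinearGroup.val_det_apply, coe_scalC, Matrix.det_diagonal]
  simp [sq]

/-- If `g · (element supported at the complex place w)` is in `GL₂(𝔸_K)⁺`, so is `g`. -/
theorem inGPlus_of_mul_locInfComplex416 {t n : K} {w : InfinitePlace K} (hw : w.IsComplex)
    {g : A0.G K} (M : GL (Fin 2) ℂ) (h : InGPlus t n (g * locInfComplex hw M)) :
    InGPlus t n g := by
  obtain ⟨m, hm⟩ := h
  obtain ⟨σ, hσ⟩ : ∃ σ : ℂ, σ ^ 2 = ((Matrix.GeneralLinearGroup.det M : ℂˣ) : ℂ) :=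
    IsAlgClosed.exists_pow_nat_eq _ (by norm_num)
  have hσ0 : σ ≠ 0 := by
    intro h0
    rw [h0] at hσ
    exact (Matrix.GeneralLinearGroup.det M).ne_zero (by rw [← hσ]; simp)
  have hdetσ : Matrix.GeneralLinearGroup.det (scalC (Units.mk0 σ hσ0))
      = Matrix.GeneralLinearGroup.det M := by
    rw [det_scalC]
    ext
    rw [Units.val_mul, Units.val_mk0, ← hσ, sq]
  set κ : A0.G K := locInfComplex hw (scalC (Units.mk0 σ hσ0)) with hκ
  have hκT : InTorus t n κ := inTorus_locInfComplex416 hw _ (isTorM_scalC _ _ _)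
  have hκdet : Matrix.GeneralLinearGroup.det κ
      = Matrix.GeneralLinearGroup.det (locInfComplex hw M : A0.G K) := by
    rw [hκ, det_locInfComplex, det_locInfComplex, hdetσ]
  refine ⟨m * κ⁻¹, inTorus_mul971 hm.1 (inTorus_inv416 hκT), ?_⟩
  have h2 := hm.2
  rw [map_mul] at h2
  rw [map_mul, map_inv, hκdet, ← h2, mul_inv_cancel_right]

end Fermat.Agent.LT.A2.H416
end
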