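import Fermat.Agent.LT.A2.H416.Torus

/-!
# Row LT, tower A2, leaf A2.03.7 WHIT-MEAN (helper416): local adeles, ideles and matrices at a
complex place

OFF-MAIN.  `locAdlHom w`, `locIdl w`, `cIdl hw : ℂˣ →* 𝔸_Kˣ` (idele supported at the complex place
`w`), `locAdd w` (adele supported at `w`), `nU416` (upper unipotent matrices); the entries of
`T0.locInfComplex hw M`; `[[y, x], [0, 1]] = n(x) · diag(√y, 1/√y) · √y`; the module and the
quadratic character of an idele supported at `w`.
-/

set_option autoImplicit false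
set_option linter.unusedSectionVars false
open IsDedekindDomain NumberField AutomorphicForm MeasureTheory
open scoped MatrixGroups Topology Classical
noncomputable section
namespace Fermat.Agent.LT.A2.H416
open Fermat.Agent.LT.H130 Fermat.Agent.LT.H556 Fermat.Agent.LT.A2 Fermat.Agent.LT.H470
open Fermat.Agent.LT.T8.H864 Fermat.Agent.LT.H556.T0 Fermat.Agent.LT.A2.H971

variable {K : Type} [Field K] [NumberField K]

/-- The infinite adele with component `x` at `w` and `c` elsewhere. -/
def updInf (c : (w' : InfinitePlace K) → w'.Completion) (w : InfinitePlace K)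
    (x : w.Completion) : InfiniteAdeleRing K :=
  Function.update c w x

theorem updInf_self (c : (w' : InfinitePlace K) → w'.Completion) (w : InfinitePlace K)
    (x : w.Completion) : updInf c w x w = x :=
  Function.update_self w x c

theorem updInf_of_ne (c : (w' : InfinitePlace K) → w'.Completion) {w w' : InfinitePlace K}
    (h : w' ≠ w) (x : w.Completion) : updInf c w x w' = c w' :=
  Function.update_of_ne h x c

/-- The adele with component `x` at `w` and `1` elsewhere, multiplicatively. -/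
def locAdlHom (w : InfinitePlace K) : w.Completion →* A0.Adl K where
  toFun x := (updInf (fun _ => 1) w x, 1)
  map_one' := by
    refine Prod.ext ?_ rfl
    funext w'
    by_cases h : w' = w
    · subst h; exact updInf_self (K := K) (fun _ => 1) w' 1
    · exact updInf_of_ne (K := K) (fun _ => 1) h 1
  map_mul' x y := by
    refine Prod.ext ?_ (mul_one 1).symm
    funext w'
    by_cases h : w' = w
    · subst h
      show updInf (K := K) (fun _ => 1) w' (x * y) w'
        = updInf (K := K) (fun _ => 1) w' x w' * updInf (K := K) (fun _ => 1) w' y w'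
      rw [updInf_self, updInf_self, updInf_self]
    · show updInf (K := K) (fun _ => 1) w (x * y) w'
        = updInf (K := K) (fun _ => 1) w x w' * updInf (K := K) (fun _ => 1) w y w'
      rw [updInf_of_ne _ h, updInf_of_ne _ h, updInf_of_ne _ h, mul_one]

theorem locAdlHom_fst_self (w : InfinitePlace K) (x : w.Completion) :
    (locAdlHom w x).1 w = x := updInf_self (K := K) (fun _ => 1) w x

theorem locAdlHom_fst_of_ne {w w' : InfinitePlace K} (h : w' ≠ w) (x : w.Completion) :
    (locAdlHom w x).1 w' = 1 := updInf_of_ne (K := K) (fun _ => 1) h x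

theorem locAdlHom_snd (w : InfinitePlace K) (x : w.Completion) (v : HeightOneSpectrum (𝓞 K)) :
    (locAdlHom w x).2 v = 1 := rfl

/-- The idele with component `u` at `w` and `1` elsewhere. -/
def locIdl (w : InfinitePlace K) : (w.Completion)ˣ →* (A0.Adl K)ˣ := Units.map (locAdlHom w)

theorem coe_locIdl (w : InfinitePlace K) (u : (w.Completion)ˣ) :
    ((locIdl w u : (A0.Adl K)ˣ) : A0.Adl K) = locAdlHom w (u : w.Completion) := rfl

/-- The adele with component `x` at `w` and `0` elsewhere. -/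
def locAdd (w : InfinitePlace K) (x : w.Completion) : A0.Adl K :=
  (updInf (fun _ => 0) w x, 0)

theorem locAdd_fst_self (w : InfinitePlace K) (x : w.Completion) :
    (locAdd w x).1 w = x := updInf_self (K := K) (fun _ => 0) w x

theorem locAdd_fst_of_ne {w w' : InfinitePlace K} (h : w' ≠ w) (x : w.Completion) :
    (locAdd w x).1 w' = 0 := updInf_of_ne (K := K) (fun _ => 0) h x

theorem locAdd_snd (w : InfinitePlace K) (x : w.Completion) (v : HeightOneSpectrum (𝓞 K)) :
    (locAdd w x).2 v = 0 := rfl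

theorem adlAtInf_locAdd (w : InfinitePlace K) (x : w.Completion) :
    WL.AdlAtInf w (locAdd w x) :=
  ⟨fun _ h => locAdd_fst_of_ne h x, fun v => locAdd_snd w x v⟩

/-- The upper unipotent matrices. -/
def nU416 (x : A0.Adl K) : A0.G K :=
  ⟨!![1, x; 0, 1], !![1, -x; 0, 1], by
      ext i j; fin_cases i <;> fin_cases j <;> simp [Matrix.mul_apply, Fin.sum_univ_two],
    by ext i j; fin_cases i <;> fin_cases j <;> simp [Matrix.mul_apply, Fin.sum_univ_two]⟩

theorem isUpperUnip_nU416 : IsUpperUnip (nU416 (K := K)) := fun _ => rfl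


/-! ## Entries of the local elements at a complex place -/

theorem coe_locInfComplex_apply {w : InfinitePlace K} (hw : w.IsComplex) (M : GL (Fin 2) ℂ)
    (i j : Fin 2) :
    ((locInfComplex hw M : A0.G K) : Matrix (Fin 2) (Fin 2) (A0.Adl K)) i j
      = ((infEntry w i j (cplxHom hw ((M : Matrix (Fin 2) (Fin 2) ℂ) i j)), finOne i j) :
          A0.Adl K) := rfl

theorem entry_diag_eq (w : InfinitePlace K) (i : Fin 2) (x : w.Completion) :
    ((infEntry w i i x, finOne i i) : A0.Adl K) = locAdlHom w x := by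
  refine adl_ext (fun w' => ?_) (fun v => ?_)
  · show infEntry w i i x w' = (locAdlHom w x).1 w'
    by_cases h : w' = w
    · subst h
      rw [infEntry_self, locAdlHom_fst_self]
    · rw [infEntry_of_ne h, locAdlHom_fst_of_ne h, Matrix.one_apply_eq]
  · show (1 : Matrix (Fin 2) (Fin 2) (v.adicCompletion K)) i i = 1
    rw [Matrix.one_apply_eq]

theorem entry_off_eq (w : InfinitePlace K) {i j : Fin 2} (hij : i ≠ j) (x : w.Completion) :
    ((infEntry w i j x, finOne i j) : A0.Adl K) = locAdd w x := by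
  refine adl_ext (fun w' => ?_) (fun v => ?_)
  · show infEntry w i j x w' = (locAdd w x).1 w'
    by_cases h : w' = w
    · subst h
      rw [infEntry_self, locAdd_fst_self]
    · rw [infEntry_of_ne h, locAdd_fst_of_ne h, Matrix.one_apply_ne hij]
  · show (1 : Matrix (Fin 2) (Fin 2) (v.adicCompletion K)) i j = 0
    rw [Matrix.one_apply_ne hij]

theorem locAdd_zero (w : InfinitePlace K) : locAdd w (0 : w.Completion) = 0 := by
  refine adl_ext (fun w' => ?_) (fun v => rfl)
  show (locAdd w 0).1 w' = 0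
  by_cases h : w' = w
  · subst h; rw [locAdd_fst_self]
  · rw [locAdd_fst_of_ne h]

/-- The unipotent element at `w`. -/
theorem locInfComplex_upperU_one {w : InfinitePlace K} (hw : w.IsComplex) (x : ℂ) :
    (locInfComplex hw (upperU x 1 one_ne_zero) : A0.G K) = nU416 (locAdd w (cplxHom hw x)) := by
  refine Units.ext (Matrix.ext fun i j => ?_)
  rw [coe_locInfComplex_apply, coe_upperU]
  fin_cases i <;> fin_cases j
  · show ((infEntry w 0 0 (cplxHom hw ((1 : ℝ) : ℂ)), finOne 0 0) : A0.Adl K) = 1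
    rw [entry_diag_eq, Complex.ofReal_one, map_one, map_one]
    rfl
  · show ((infEntry w 0 1 (cplxHom hw x), finOne 0 1) : A0.Adl K) = locAdd w (cplxHom hw x)
    rw [entry_off_eq w (by decide)]
  · show ((infEntry w 1 0 (cplxHom hw 0), finOne 1 0) : A0.Adl K) = 0
    rw [entry_off_eq w (by decide), map_zero, locAdd_zero]
    rfl
  · show ((infEntry w 1 1 (cplxHom hw 1), finOne 1 1) : A0.Adl K) = 1
    rw [entry_diag_eq, map_one, map_one]
    rfl

/-- `diag(s, s⁻¹)` in `GL₂(ℂ)`. -/
def dgC (s : ℂˣ) : GL (Fin 2) ℂ :=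
  ⟨!![(s : ℂ), 0; 0, ((s⁻¹ : ℂˣ) : ℂ)], !![((s⁻¹ : ℂˣ) : ℂ), 0; 0, (s : ℂ)], by
      ext i j; fin_cases i <;> fin_cases j <;> simp [Matrix.mul_apply, Fin.sum_univ_two],
    by ext i j; fin_cases i <;> fin_cases j <;> simp [Matrix.mul_apply, Fin.sum_univ_two]⟩

theorem coe_dgC (s : ℂˣ) :
    ((dgC s : GL (Fin 2) ℂ) : Matrix (Fin 2) (Fin 2) ℂ) = !![(s : ℂ), 0; 0, ((s⁻¹ : ℂˣ) : ℂ)] :=
  rfl

/-- The idele with component `s` at the complex place `w`. -/
def cIdl {w : InfinitePlace K} (hw : w.IsComplex) : ℂˣ →* (A0.Adl K)ˣ :=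
  (locIdl w).comp (Units.map (cplxHom hw).toMonoidHom)

theorem coe_cIdl {w : InfinitePlace K} (hw : w.IsComplex) (s : ℂˣ) :
    ((cIdl hw s : (A0.Adl K)ˣ) : A0.Adl K) = locAdlHom w (cplxHom hw (s : ℂ)) := rfl

/-- The diagonal element `t(a)` at `w`. -/
theorem isDiagSLA_dgC {w : InfinitePlace K} (hw : w.IsComplex) (s : ℂˣ) :
    WL.IsDiagSLA (locInfComplex hw (dgC s) : A0.G K) (cIdl hw s) := by
  unfold WL.IsDiagSLA
  refine Matrix.ext fun i j => ?_
  rw [coe_locInfComplex_apply, coe_dgC, ← map_inv, coe_cIdl, coe_cIdl]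
  fin_cases i <;> fin_cases j
  · show ((infEntry w 0 0 (cplxHom hw (s : ℂ)), finOne 0 0) : A0.Adl K) = _
    rw [entry_diag_eq]; rfl
  · show ((infEntry w 0 1 (cplxHom hw 0), finOne 0 1) : A0.Adl K) = 0
    rw [entry_off_eq w (by decide), map_zero, locAdd_zero]
    rfl
  · show ((infEntry w 1 0 (cplxHom hw 0), finOne 1 0) : A0.Adl K) = 0
    rw [entry_off_eq w (by decide), map_zero, locAdd_zero]
    rfl
  · show ((infEntry w 1 1 (cplxHom hw ((s⁻¹ : ℂˣ) : ℂ)), finOne 1 1) : A0.Adl K) = _
    rw [entry_diag_eq]; rfl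


/-! ## Norms, characters -/

theorem norm_cplxHom {w : InfinitePlace K} (hw : w.IsComplex) (z : ℂ) :
    ‖cplxHom hw z‖ = ‖z‖ := by
  have h := (InfinitePlace.Completion.isometry_extensionEmbedding w).norm_map_of_map_zero
    (map_zero _) (cplxHom hw z)
  rw [extensionEmbedding_cplxHom] at h
  exact h.symm

/-- The module of the idele `s` at the complex place `w` is `|s|²`. -/
theorem adNorm_cIdl {w : InfinitePlace K} (hw : w.IsComplex) (s : ℂˣ) :
    T1.adNorm K ((cIdl hw s : (A0.Adl K)ˣ) : A0.Adl K) = ‖(s : ℂ)‖ ^ 2 := by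
  rw [coe_cIdl]
  unfold T1.adNorm
  have h1 : (∏ᶠ v : HeightOneSpectrum (𝓞 K), ‖(locAdlHom w (cplxHom hw (s : ℂ))).2 v‖) = 1 := by
    refine finprod_eq_one_of_forall_eq_one fun v => ?_
    rw [locAdlHom_snd, norm_one]
  have h2 : (∏ w' : InfinitePlace K, ‖(locAdlHom w (cplxHom hw (s : ℂ))).1 w'‖ ^ w'.mult)
      = ‖(s : ℂ)‖ ^ 2 := by
    rw [Finset.prod_eq_single w]
    · rw [locAdlHom_fst_self, norm_cplxHom, hw.mult_eq_two]
    · intro w' _ h
      rw [locAdlHom_fst_of_ne h, norm_one, one_pow]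
    · intro h
      exact absurd (Finset.mem_univ w) h
  rw [h1, h2, mul_one]

/-- A quadratic character is trivial on the ideles supported at a complex place. -/
theorem quadChar_cIdl {t n : K} {η : (A0.Adl K)ˣ → ℂ} (hη : WL.IsQuadChar t n η)
    {w : InfinitePlace K} (hw : w.IsComplex) (s : ℂˣ) : η (cIdl hw s) = 1 := by
  obtain ⟨σ, hσ⟩ : ∃ σ : ℂ, σ ^ 2 = (s : ℂ) :=
    IsAlgClosed.exists_pow_nat_eq (s : ℂ) (by norm_num)
  have hσ0 : σ ≠ 0 := by
    intro h
    rw [h] at hσ
    exact s.ne_zero (by rw [← hσ]; simp)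
  have hs : s = Units.mk0 σ hσ0 * Units.mk0 σ hσ0 := by
    ext
    rw [Units.val_mul, Units.val_mk0, ← hσ, sq]
  rw [hs, map_mul, hη.mul]
  rcases hη.sq (cIdl hw (Units.mk0 σ hσ0)) with h | h <;> rw [h] <;> norm_num

/-- `[[y, x], [0, 1]] = n(x) · diag(√y, 1/√y) · √y`. -/
theorem upperU_eq_mul (x : ℂ) {y : ℝ} (hy : 0 < y) :
    upperU x y hy.ne' = upperU x 1 one_ne_zero
      * dgC (Units.mk0 ((Real.sqrt y : ℝ) : ℂ)
          (Complex.ofReal_ne_zero.2 (Real.sqrt_pos.2 hy).ne'))
      * scalarU (Real.sqrt y) (Real.sqrt_pos.2 hy).ne' := by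
  have hs : ((Real.sqrt y : ℝ) : ℂ) * ((Real.sqrt y : ℝ) : ℂ) = (y : ℂ) := by
    rw [← Complex.ofReal_mul, Real.mul_self_sqrt hy.le]
  have hs0 : ((Real.sqrt y : ℝ) : ℂ) ≠ 0 := Complex.ofReal_ne_zero.2 (Real.sqrt_pos.2 hy).ne'
  refine Units.ext ?_
  rw [Units.val_mul, Units.val_mul, coe_upperU, coe_upperU, coe_dgC, coe_scalarU]
  ext i j
  fin_cases i <;> fin_cases j <;>
    simp [Matrix.mul_apply, Matrix.diagonal_apply, hs, hs0]

end Fermat.Agent.LT.A2.H416
end
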