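import Fermat.Agent.LT.A2.H416.Loc

/-!
# Row LT, tower A2, leaf A2.03.7 WHIT-MEAN (helper416): the Whittaker function on the Borel
subgroup at a complex place

OFF-MAIN.  `whit_unip416` (`W(n(x) g) = ψ(x) W(g)`), `whit_diag416` (`diagA` at the complex place),
`whit_upper416`:

    W(g₀ · [[y, x], [0, 1]]_w) = ψ(x_w) · y · ∫_{T¹} F g₀ (m m₁) (√y e₁) χT(m m₁) dμT(m)

for `g₀` trivial at `w`, `(g₀, m₁)` admissible, `W` right invariant under the positive scalars.
-/

set_option autoImplicit false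
set_option linter.unusedSectionVars false
set_option linter.style.haveILetI false
open IsDedekindDomain NumberField AutomorphicForm MeasureTheory
open scoped MatrixGroups Topology Classical
noncomputable section
namespace Fermat.Agent.LT.A2.H416
open Fermat.Agent.LT.H130 Fermat.Agent.LT.H556 Fermat.Agent.LT.A2 Fermat.Agent.LT.H470
open Fermat.Agent.LT.T8.H864 Fermat.Agent.LT.H556.T0 Fermat.Agent.LT.A2.H971

variable {K : Type} [Field K] [NumberField K]

/-! ## Determinants -/

theorem det_nU416 (x : A0.Adl K) : Matrix.GeneralLinearGroup.det (nU416 x) = 1 := by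
  refine Units.ext ?_
  rw [Matrix.GeneralLinearGroup.val_det_apply]
  show (!![1, x; 0, 1] : Matrix (Fin 2) (Fin 2) (A0.Adl K)).det = 1
  rw [Matrix.det_fin_two_of]
  simp

/-- The determinant of a local element at `w`. -/
theorem coe_det_locInf (w : InfinitePlace K) (X : GL (Fin 2) w.Completion) :
    ((Matrix.GeneralLinearGroup.det (locInf w X) : (A0.Adl K)ˣ) : A0.Adl K)
      = locAdlHom w (X : Matrix (Fin 2) (Fin 2) w.Completion).det := by
  rw [Matrix.GeneralLinearGroup.val_det_apply, coe_locInf]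
  refine adl_ext (fun w' => ?_) (fun v => ?_)
  · rw [RingHom.map_det]
    show ((locInfMat w (X : Matrix (Fin 2) (Fin 2) w.Completion)).map (evInf w')).det
      = (locAdlHom w (X : Matrix (Fin 2) (Fin 2) w.Completion).det).1 w'
    by_cases h : w' = w
    · subst h
      rw [locInfMat_map_evInf_self, locAdlHom_fst_self]
    · rw [locInfMat_map_evInf_of_ne h, locAdlHom_fst_of_ne h, Matrix.det_one]
  · rw [RingHom.map_det]
    show ((locInfMat w (X : Matrix (Fin 2) (Fin 2) w.Completion)).map (evFin v)).det = 1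
    rw [locInfMat_map_evFin, Matrix.det_one]

theorem det_locInf (w : InfinitePlace K) (X : GL (Fin 2) w.Completion) :
    Matrix.GeneralLinearGroup.det (locInf w X)
      = locIdl w (Matrix.GeneralLinearGroup.det X) :=
  Units.ext (by rw [coe_det_locInf, coe_locIdl, Matrix.GeneralLinearGroup.val_det_apply])

theorem det_locInfComplex {w : InfinitePlace K} (hw : w.IsComplex) (M : GL (Fin 2) ℂ) :
    Matrix.GeneralLinearGroup.det (locInfComplex hw M : A0.G K)
      = cIdl hw (Matrix.GeneralLinearGroup.det M) := by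
  show Matrix.GeneralLinearGroup.det (locInf w (Matrix.GeneralLinearGroup.map (cplxHom hw) M)) = _
  rw [det_locInf]
  refine Units.ext ?_
  rw [coe_locIdl, coe_cIdl, Matrix.GeneralLinearGroup.val_det_apply,
    Matrix.GeneralLinearGroup.val_det_apply]
  congr 1
  exact ((cplxHom hw).map_det _).symm

theorem det_locInfComplex_of_det_one {w : InfinitePlace K} (hw : w.IsComplex) {M : GL (Fin 2) ℂ}
    (h : (M : Matrix (Fin 2) (Fin 2) ℂ).det = 1) :
    Matrix.GeneralLinearGroup.det (locInfComplex hw M : A0.G K) = 1 := by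
  rw [det_locInfComplex]
  have : Matrix.GeneralLinearGroup.det M = 1 :=
    Units.ext (by rw [Matrix.GeneralLinearGroup.val_det_apply, h]; rfl)
  rw [this, map_one]

theorem det_dgC (s : ℂˣ) : ((dgC s : GL (Fin 2) ℂ) : Matrix (Fin 2) (Fin 2) ℂ).det = 1 := by
  rw [coe_dgC, Matrix.det_fin_two_of]
  simp

/-! ## Admissibility -/

theorem adm_mul_left_of_det_one {t n : K} {u g m : A0.G K}
    (hu : Matrix.GeneralLinearGroup.det u = 1) :
    Adm t n (u * g) m ↔ Adm t n g m := by
  unfold Adm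
  rw [map_mul, hu, one_mul]

theorem inGPlus_mul_left_of_det_one {t n : K} {u g : A0.G K}
    (hu : Matrix.GeneralLinearGroup.det u = 1) :
    InGPlus t n (u * g) ↔ InGPlus t n g := by
  unfold InGPlus
  exact exists_congr fun m => adm_mul_left_of_det_one hu

theorem qf_e1 (t n : K) : qf t n ((1 : A0.Adl K), (0 : A0.Adl K)) = 1 := by
  simp [qf]


/-! ## Integrals over the norm-one torus -/

theorem intT_congr416 (D : KData K) {S : Set (A0.G K)}
    (hS : @MeasurableSet (A0.G K) (borel (A0.G K)) S) {f f' : A0.G K → ℂ}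
    (h : ∀ m ∈ S, f m = f' m) : D.intT S f = D.intT S f' := by
  letI : MeasurableSpace (A0.G K) := borel (A0.G K)
  exact setIntegral_congr_fun hS h

theorem intT_const_mul416 (D : KData K) (S : Set (A0.G K)) (c : ℂ) (f : A0.G K → ℂ) :
    D.intT S (fun m => c * f m) = c * D.intT S f := by
  letI : MeasurableSpace (A0.G K) := borel (A0.G K)
  exact integral_const_mul c f

theorem measurableSet_torus1_416 (hT1 : T1.T1Out K) (t n : K) :
    @MeasurableSet (A0.G K) (borel (A0.G K)) {m : A0.G K | InTorus1 t n m} := by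
  obtain ⟨⟨_, hT2A, _⟩, _, _, _⟩ := hT1.locComp
  have := hT2A
  letI : MeasurableSpace (A0.G K) := borel (A0.G K)
  haveI : BorelSpace (A0.G K) := ⟨rfl⟩
  exact (isClosed_inTorus1_971 t n).measurableSet

/-- **UNIP**: `W(n(x) g) = ψ(x) W(g)`. -/
theorem whit_unip416 (D : KData K) (hT1 : T1.T1Out K) (hgood : D.Good) {W : A0.G K → ℂ}
    (hW : D.IsWhit W) (x : A0.Adl K) (g : A0.G K) : W (nU416 x * g) = D.ψ x * W g := by
  by_cases hg : InGPlus D.t D.n g
  · obtain ⟨mg, hadm⟩ := hg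
    have hadm' : Adm D.t D.n (nU416 x * g) mg := (adm_mul_left_of_det_one (det_nU416 x)).2 hadm
    rw [hW.formula _ mg hadm', hW.formula g mg hadm, ← intT_const_mul416]
    refine intT_congr416 D (measurableSet_torus1_416 hT1 D.t D.n) fun m hm => ?_
    have h := hgood.weil.unip nU416 isUpperUnip_nU416 x g (m * mg) (1, 0)
      (adm_torus1_mul971 hm hadm)
    rw [h, qf_e1, mul_one, mul_assoc]
  · have hg' : ¬ InGPlus D.t D.n (nU416 x * g) := fun h =>
      hg ((inGPlus_mul_left_of_det_one (det_nU416 x)).1 h)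
    rw [hW.off _ hg', hW.off _ hg, mul_zero]

/-- **DIAG**: `W(t(a) g) = |s|² ∫ F g (m m_g) (a e₁) χT(m m_g) dm`, `a` the idele `s` at the
complex place `w`. -/
theorem whit_diag416 (D : KData K) (η : (A0.Adl K)ˣ → ℂ) (hT1 : T1.T1Out K)
    (hstd : WL.IsStd D η) {W : A0.G K → ℂ} (hW : D.IsWhit W) {w : InfinitePlace K}
    (hw : w.IsComplex) (s : ℂˣ) {g mg : A0.G K} (hadm : Adm D.t D.n g mg) :
    W (locInfComplex hw (dgC s) * g)
      = ((‖(s : ℂ)‖ ^ 2 : ℝ) : ℂ) * D.intT {m | InTorus1 D.t D.n m}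
          (fun m => D.F g (m * mg) ((cIdl hw s : A0.Adl K) • ((1 : A0.Adl K), (0 : A0.Adl K)))
            * D.χT (m * mg)) := by
  have hdet : Matrix.GeneralLinearGroup.det (locInfComplex hw (dgC s) : A0.G K) = 1 :=
    det_locInfComplex_of_det_one hw (det_dgC s)
  have hadm' : Adm D.t D.n (locInfComplex hw (dgC s) * g) mg :=
    (adm_mul_left_of_det_one hdet).2 hadm
  rw [hW.formula _ mg hadm', ← intT_const_mul416]
  refine intT_congr416 D (measurableSet_torus1_416 hT1 D.t D.n) fun m hm => ?_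
  have h := hstd.diagA _ _ (isDiagSLA_dgC hw s) g (m * mg) (1, 0) (adm_torus1_mul971 hm hadm)
  rw [h, quadChar_cIdl hstd.quad hw s, adNorm_cIdl hw s, one_mul, mul_assoc]


/-- `√y` as a unit of `ℂ`. -/
def sqU (y : ℝ) (hy : 0 < y) : ℂˣ :=
  Units.mk0 ((Real.sqrt y : ℝ) : ℂ) (Complex.ofReal_ne_zero.2 (Real.sqrt_pos.2 hy).ne')

theorem coe_sqU (y : ℝ) (hy : 0 < y) : ((sqU y hy : ℂˣ) : ℂ) = ((Real.sqrt y : ℝ) : ℂ) := rfl

theorem norm_sqU_sq (y : ℝ) (hy : 0 < y) : ‖((sqU y hy : ℂˣ) : ℂ)‖ ^ 2 = y := by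
  rw [coe_sqU, Complex.norm_real, Real.norm_eq_abs, abs_of_pos (Real.sqrt_pos.2 hy),
    Real.sq_sqrt hy.le]

/-- **The Whittaker function on the Borel subgroup at `w`**:
`W(g₀ [[y, x], [0, 1]]_w) = ψ(x_w) · y · ∫ F g₀ (m m₁) (√y e₁) χT(m m₁) dm`. -/
theorem whit_upper416 (D : KData K) (η : (A0.Adl K)ˣ → ℂ) (hT1 : T1.T1Out K) (hgood : D.Good)
    (hstd : WL.IsStd D η) {W : A0.G K → ℂ} (hW : D.IsWhit W) {w : InfinitePlace K}
    (hw : w.IsComplex)
    (hs : ∀ z : A0.G K, A0.IsArchPosScalar w z → ∀ g : A0.G K, W (g * z) = W g)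
    {g₀ m₁ : A0.G K} (hg₀ : A0.TrivAtInf w g₀) (hadm : Adm D.t D.n g₀ m₁) (x : ℂ) {y : ℝ}
    (hy : 0 < y) :
    W (g₀ * locInfComplex hw (upperU x y hy.ne'))
      = D.ψ (locAdd w (cplxHom hw x)) * (((y : ℝ) : ℂ) * D.intT {m | InTorus1 D.t D.n m}
          (fun m => D.F g₀ (m * m₁)
              ((cIdl hw (sqU y hy) : A0.Adl K) • ((1 : A0.Adl K), (0 : A0.Adl K)))
            * D.χT (m * m₁))) := by
  rw [upperU_eq_mul x hy, map_mul, ← mul_assoc,
    hs _ (isArchPosScalar_locInfComplex hw _ (Real.sqrt y) (Real.sqrt_pos.2 hy) (coe_scalarU _ _))]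
  have hcomm : g₀ * locInfComplex hw (upperU x 1 one_ne_zero * dgC (sqU y hy))
      = locInfComplex hw (upperU x 1 one_ne_zero * dgC (sqU y hy)) * g₀ :=
    mul_locInf_comm_of_trivAtInf hg₀ _
  show W (g₀ * locInfComplex hw (upperU x 1 one_ne_zero * dgC (sqU y hy))) = _
  rw [hcomm, map_mul, mul_assoc, locInfComplex_upperU_one, whit_unip416 D hT1 hgood hW,
    whit_diag416 D η hT1 hstd hW hw (sqU y hy) hadm, norm_sqU_sq]

end Fermat.Agent.LT.A2.H416
end
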