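import Fermat.Agent.LT.A2.WeilLocal
import Fermat.Agent.LT.H556.T0.ArchIwasawa
import Fermat.Agent.LT.H470.Frame

/-!
# Row LT, tower A2, leaf A2.03.7 WHIT-MEAN (owner helper416): THE CUT

OFF-MAIN.  Definitions and `Prop`s only (no `sorry`, nothing assumed).

    WL.WhitMeanC ⟸ BesselInvC + EigenOdeC + ArchInvC + IwasawaGL2C + (adelic core, helper416)

## The mathematics (ODE route: NO disintegration of the torus measure, NO `K₀`)

Fix a complex place `w`, `g₀`, `m₁` trivial at `w` with `(g₀, m₁)` admissible, `c` the constant of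
`IsStd.cpx`, `a = 2π|c|`.  For `x ∈ ℂ`, `y > 0`:

    W(g₀ · [[y, x], [0, 1]]_w) = exp(4πi Re(c x)) · y · J(y),
    J(y) = ∫_{T¹(𝔸)} A(m) exp(-a y (p(m) + q(m))) dμT(m),

`p = |α₁|²`, `q = |α₂|²` the squared absolute values of the split coordinates of `(m⁻¹)_w`
(`p q = 1`), `A` independent of `y` (`unip`, `diagA`, `tor1`, `cpx`).  The translation of `μT` by
the element of `T¹(ℂ_w)` of split coordinates `(r, r⁻¹)`, `r > 0`, gives
`∫ A exp(-a y (r⁻² p + r² q)) = J(y)` for all `r > 0`.  Differentiating twice in `r` at `r = 1`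
and twice in `y` under the integral sign (`BesselInvC`) gives the modified Bessel equation
`y J'' + J' - 4 a² y J = 0`; hence `(x, y) ↦ exp(4πi Re(c x)) y J(y)` is a solution of the
hyperbolic Laplace equation of `ℍ³` (`EigenOdeC`), and has the mean-value property in every frame
(`H470.frameMVP_euler470`).  `ArchInvC` + `IwasawaGL2C`: `W(g₀ · M_w) = f(jpt M)`.
-/

set_option autoImplicit false

open IsDedekindDomain NumberField AutomorphicForm MeasureTheory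
open scoped MatrixGroups Topology

noncomputable section

namespace Fermat.Agent.LT.A2.H416

open Fermat.Agent.LT.H130 Fermat.Agent.LT.H556 Fermat.Agent.LT.A2 Fermat.Agent.LT.H470

/-- **A2.03.7.1 BESSEL-INV** (Mathlib only; differentiation under the integral sign).
`J(y) = ∫ A exp(-a y (p + q)) dμ`, `p q = 1`; if `∫ A exp(-a y (r⁻² p + r² q)) dμ = J(y)` for all
`r > 0` then `J` is twice differentiable on `y > 0` and `y J'' + J' - 4 a² y J = 0`.
Proof: `hasDerivAt_integral_of_dominated_loc_of_deriv_le` four times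
(`S^k e^{-a y S} ≤ C e^{-a y S / 2}`, `S = p + q`; for `|log r| ≤ δ`:
`r⁻² p + r² q ≥ e^{-2δ} S`), `G(s) = ∫ A exp(-a y (e^{-2s} p + e^{2s} q))` is constant so
`G''(0) = 0`, and `G''(0) = 4 y (y J'' + J' - 4 a² y J)` because `(q - p)² = S² - 4`. -/
def BesselInvC : Prop :=
  ∀ (X : Type) [MeasurableSpace X] (μ : Measure X) (a : ℝ), 0 < a →
  ∀ (A : X → ℂ) (p q : X → ℝ), AEStronglyMeasurable A μ → AEMeasurable p μ → AEMeasurable q μ →
    (∀ᵐ m ∂μ, 0 < p m ∧ 0 < q m ∧ p m * q m = 1) →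
    (∀ y : ℝ, 0 < y →
      Integrable (fun m => A m * Complex.exp (-((a * y * (p m + q m) : ℝ) : ℂ))) μ) →
    (∀ y : ℝ, 0 < y → ∀ r : ℝ, 0 < r →
      ∫ m, A m * Complex.exp (-((a * y * (r⁻¹ ^ 2 * p m + r ^ 2 * q m) : ℝ) : ℂ)) ∂μ
        = ∫ m, A m * Complex.exp (-((a * y * (p m + q m) : ℝ) : ℂ)) ∂μ) →
    ∃ J1 J2 : ℝ → ℂ,
      (∀ y : ℝ, 0 < y → HasDerivAt
        (fun y : ℝ => ∫ m, A m * Complex.exp (-((a * y * (p m + q m) : ℝ) : ℂ)) ∂μ) (J1 y) y) ∧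
      (∀ y : ℝ, 0 < y → HasDerivAt J1 (J2 y) y) ∧
      ∀ y : ℝ, 0 < y → (y : ℂ) * J2 y + J1 y
        - ((4 * a ^ 2 * y : ℝ) : ℂ)
          * (∫ m, A m * Complex.exp (-((a * y * (p m + q m) : ℝ) : ℂ)) ∂μ) = 0

/-- **A2.03.7.2 EIGEN-ODE** (Mathlib + `LT/H470/Chain.lean`; the general form of
`H802.eigenData_whit802`).  If `y J'' + J' - (b₁² + b₂²) y J = 0` on `y > 0` then
`(x₁, x₂, y) ↦ exp(i (b₁ x₁ + b₂ x₂)) · y J(y)` is a solution of the hyperbolic Laplace equation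
(`H470.EigenData470`). -/
def EigenOdeC : Prop :=
  ∀ (b₁ b₂ : ℝ) (J J1 J2 : ℝ → ℂ),
    (∀ y : ℝ, 0 < y → HasDerivAt J (J1 y) y) → (∀ y : ℝ, 0 < y → HasDerivAt J1 (J2 y) y) →
    (∀ y : ℝ, 0 < y →
      (y : ℂ) * J2 y + J1 y - ((b₁ ^ 2 + b₂ ^ 2 : ℝ) : ℂ) * (y : ℂ) * J y = 0) →
    ∃ (f' : E3 → E3 →L[ℝ] ℂ) (f'' : E3 → E3 →L[ℝ] E3 →L[ℝ] ℂ),
      EigenData470
        (fun p : E3 => Complex.exp (Complex.I * ((b₁ : ℂ) * (p.1 : ℂ) + (b₂ : ℂ) * (p.2.1 : ℂ)))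
          * ((p.2.2 : ℂ) * J p.2.2)) f' f''

/-- **A2.03.7.3 ARCH-INV.**  The Whittaker function of good data is right invariant under the
positive real scalars and the maximal compact subgroups at the infinite places
(`IsRightInv.arch_scalar`, `arch_compact`: `m_{g z} = m_g κ`, `χT κ = 1`, pointwise identity of
the integrands on `T¹`; outside `GL₂(𝔸)⁺` both sides vanish; `T¹` is closed by `T1Out.locComp`,
see `H971.isClosed_inTorus1_971`). -/
def ArchInvC : Prop :=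
  ∀ (K : Type) [Field K] [NumberField K] (D : KData K), T1.T1Out K → D.Good →
    ∀ W : A0.G K → ℂ, D.IsWhit W →
      (∀ (w : InfinitePlace K) (z : A0.G K), A0.IsArchPosScalar w z →
        ∀ g : A0.G K, W (g * z) = W g) ∧
      (∀ (w : InfinitePlace K) (k : A0.G K), A0.IsArchCompact w k →
        ∀ g : A0.G K, W (g * k) = W g)

/-- **A2.03.7.4 IWASAWA-GL2** (Mathlib + `LT/H556/T0/ArchIwasawa.lean` + `LT/H470/Mobius.lean`).
Every `M ∈ GL₂(ℂ)` is `[[y, x], [0, 1]] · ρ · u`, `y, ρ > 0`, `u` unitary, and `(x, y) = M • j`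
(`H470.jpt`).  (`T0.iwasawa_eq` for `M / √(det M)`, `H470.jpt_smul470`; the phase of `√(det M)`
goes into `u`.) -/
def IwasawaGL2C : Prop :=
  ∀ M : GL (Fin 2) ℂ, ∃ (x : ℂ) (y ρ : ℝ) (hy : 0 < y) (hρ : 0 < ρ) (u : GL (Fin 2) ℂ),
    (u : Matrix (Fin 2) (Fin 2) ℂ) * (u : Matrix (Fin 2) (Fin 2) ℂ).conjTranspose = 1 ∧
    M = T0.upperU x y hy.ne' * T0.scalarU ρ hρ.ne' * u ∧
    jpt (M : Matrix (Fin 2) (Fin 2) ℂ) = (x.re, x.im, y)

end Fermat.Agent.LT.A2.H416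

end
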