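import Fermat.Agent.LT.A2.H416.Orbital

/-!
# Row LT, tower A2, leaf A2.03.7 WHIT-MEAN (helper416): THE TOP

OFF-MAIN.

    WL.WhitMeanC ⟸ BesselInvC + EigenOdeC + ArchInvC + IwasawaGL2C        (`whitMean_of_leaves416`)

* `exists_eigen416`: for `g₀` trivial at the complex place `w` the function
  `(x, y) ↦ W(g₀ · [[y, x], [0, 1]]_w)` is a solution of the hyperbolic Laplace equation of `ℍ³`
  (`H470.EigenData470`): it is `exp(4πi Re(c x)) · y · J(y)` with `J` a solution of the modified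
  Bessel equation (`bessel_orbital416`), or `0` if `g₀ ∉ GL₂(𝔸_K)⁺`;
* the top: `g = g₀ · γ_w`, `Ψ M = W(g₀ · M_w) = f(M • j)` (`IwasawaGL2C`, `ArchInvC`), and the
  mean-value property in the frame `γ` (`H470.frameMVP_euler470`).
-/

set_option autoImplicit false
set_option linter.unusedSectionVars false
set_option linter.style.haveILetI false
open IsDedekindDomain NumberField AutomorphicForm MeasureTheory
open scoped MatrixGroups Topology Classical
noncomputable section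
namespace Fermat.Agent.LT.A2.H416
open Fermat.Agent.LT.H130 Fermat.Agent.LT.H556 Fermat.Agent.LT.A2 Fermat.Agent.LT.H470
open Fermat.Agent.LT.T8.H864 Fermat.Agent.LT.H556.T0 Fermat.Agent.LT.A2.H971

variable {K : Type} [Field K] [NumberField K]

/-! ## The eigenfunction attached to `g₀` -/

theorem eigenData_zero416 :
    EigenData470 (fun _ : E3 => (0 : ℂ)) (fun _ => 0) (fun _ => 0) where
  d1 := fun p _ => hasFDerivAt_const (0 : ℂ) p
  d2 := fun p _ => hasFDerivAt_const (0 : E3 →L[ℝ] ℂ) p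
  cont := continuousOn_const
  pde := fun p _ => by simp

/-- **The Whittaker function on the upper half-space at `w`** is a solution of the hyperbolic
Laplace equation. -/
theorem exists_eigen416 (hB : BesselInvC) (hE : EigenOdeC) (D : KData K)
    (η : (A0.Adl K)ˣ → ℂ) (hT1 : T1.T1Out K) (hgood : D.Good) (hstd : WL.IsStd D η)
    {W : A0.G K → ℂ} (hW : D.IsWhit W) {w : InfinitePlace K} (hw : w.IsComplex)
    (hsc : ∀ z : A0.G K, A0.IsArchPosScalar w z → ∀ g : A0.G K, W (g * z) = W g)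
    {g₀ : A0.G K} (hg₀ : A0.TrivAtInf w g₀) :
    ∃ (f : E3 → ℂ) (f' : E3 → E3 →L[ℝ] ℂ) (f'' : E3 → E3 →L[ℝ] E3 →L[ℝ] ℂ),
      EigenData470 f f' f'' ∧ ∀ (x : ℂ) (y : ℝ) (hy : 0 < y),
        W (g₀ * locInfComplex hw (upperU x y hy.ne')) = f (x.re, x.im, y) := by
  by_cases hG : InGPlus D.t D.n g₀
  · obtain ⟨m₀, hadm₀⟩ := hG
    obtain ⟨m₁, hadm, hm₁⟩ := exists_adm_triv416 w hg₀ hadm₀
    obtain ⟨c, hc0, hψ, hcpx⟩ := hstd.cpx w hw
    obtain ⟨ω₁, ω₂, hs, hp, hne⟩ := exists_roots416 hgood.torus.irred w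
    have hc : CpxAt D w c ω₁ ω₂ := hcpx ω₁ ω₂ hs hp
    obtain ⟨J, J1, J2, hJ, h1, h2, hode⟩ :=
      bessel_orbital416 hB D η hT1 hgood hstd hw hc0 hs hp hne hc hg₀ hm₁ hadm
    have hode' : ∀ y : ℝ, 0 < y → (y : ℂ) * J2 y + J1 y
        - (((4 * Real.pi * c.re) ^ 2 + (-(4 * Real.pi * c.im)) ^ 2 : ℝ) : ℂ) * (y : ℂ) * J y
          = 0 := by
      intro y hy
      have h := hode y hy
      have hn : ‖c‖ ^ 2 = c.re ^ 2 + c.im ^ 2 := by
        rw [Complex.sq_norm, Complex.normSq_apply]; ring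
      have e : ((4 * (2 * Real.pi * ‖c‖) ^ 2 * y : ℝ) : ℂ)
          = (((4 * Real.pi * c.re) ^ 2 + (-(4 * Real.pi * c.im)) ^ 2 : ℝ) : ℂ) * (y : ℂ) := by
        rw [← Complex.ofReal_mul]
        congr 1
        have : (2 * Real.pi * ‖c‖) ^ 2 = 4 * Real.pi ^ 2 * ‖c‖ ^ 2 := by ring
        rw [this, hn]
        ring
      rw [e] at h
      exact h
    obtain ⟨f', f'', hf⟩ := hE (4 * Real.pi * c.re) (-(4 * Real.pi * c.im)) J J1 J2 h1 h2 hode'
    refine ⟨_, f', f'', hf, fun x y hy => ?_⟩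
    have hU := whit_upper416 D η hT1 hgood hstd hW hw hsc hg₀ hadm x hy
    have hint : D.intT {m | InTorus1 D.t D.n m}
        (fun m => D.F g₀ (m * m₁)
            ((cIdl hw (sqU y hy) : A0.Adl K) • ((1 : A0.Adl K), (0 : A0.Adl K)))
          * D.χT (m * m₁)) = J y := hJ y hy
    rw [hU, hint, hψ _ (adlAtInf_locAdd w _), locAdd_fst_self, extensionEmbedding_cplxHom]
    show _ = Complex.exp (Complex.I * (((4 * Real.pi * c.re : ℝ) : ℂ) * ((x.re : ℝ) : ℂ)
      + ((-(4 * Real.pi * c.im) : ℝ) : ℂ) * ((x.im : ℝ) : ℂ))) * (((y : ℝ) : ℂ) * J y)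
    congr 2
    rw [Complex.mul_re]
    push_cast
    ring
  · refine ⟨fun _ => 0, fun _ => 0, fun _ => 0, eigenData_zero416, fun x y hy => ?_⟩
    exact hW.off _ (fun h => hG (inGPlus_of_mul_locInfComplex416 hw _ h))


/-! ## The top -/

/-- The complex matrix of `g` at the complex place `w`, as an element of `GL₂(ℂ)`. -/
def cplxComp {w : InfinitePlace K} (hw : w.IsComplex) : A0.G K →* GL (Fin 2) ℂ :=
  (Matrix.GeneralLinearGroup.map
    (InfinitePlace.Completion.ringEquivComplexOfIsComplex hw).toRingHom).comp (infCompHom w)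

theorem locInfComplex_cplxComp {w : InfinitePlace K} (hw : w.IsComplex) (g : A0.G K) :
    (locInfComplex hw (cplxComp hw g) : A0.G K) = locInf w (infCompHom w g) := by
  show locInf w (Matrix.GeneralLinearGroup.map (cplxHom hw) (cplxComp hw g)) = _
  congr 1
  refine Units.ext (Matrix.ext fun i j => ?_)
  exact (InfinitePlace.Completion.ringEquivComplexOfIsComplex hw).symm_apply_apply _

/-- **A2.03.7 WHIT-MEAN from its sub-leaves.** -/
theorem whitMean_of_leaves416 (hB : BesselInvC) (hE : EigenOdeC) (hA : ArchInvC)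
    (hI : IwasawaGL2C) : WL.WhitMeanC := by
  intro K _ _ D η hT1 hgood hstd W hW w hw d hd Y hY g
  obtain ⟨hsc', hk'⟩ := hA K D hT1 hgood W hW
  have hsc := hsc' w
  have hk := hk' w
  -- the component of `g` at `w`
  set γ : GL (Fin 2) ℂ := cplxComp hw g with hγ
  set g₀ : A0.G K := g * (locInfComplex hw γ)⁻¹ with hg₀def
  have hg : g = g₀ * locInfComplex hw γ := by rw [hg₀def, inv_mul_cancel_right]
  have hg₀ : A0.TrivAtInf w g₀ := by
    rw [trivAtInf_iff_hom, hg₀def, map_mul, map_inv, hγ, locInfComplex_cplxComp,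
      infCompHom_locInf_self, mul_inv_cancel]
  obtain ⟨f, f', f'', hf, hfW⟩ := exists_eigen416 hB hE D η hT1 hgood hstd hW hw hsc hg₀
  -- the function on `GL₂(ℂ)`
  set Ψ : Matrix (Fin 2) (Fin 2) ℂ → ℂ := fun M =>
    if h : M.det ≠ 0 then W (g₀ * locInfComplex hw (Matrix.GeneralLinearGroup.mkOfDetNeZero M h))
    else 0 with hΨdef
  have hΨG : ∀ M : GL (Fin 2) ℂ,
      Ψ (M : Matrix (Fin 2) (Fin 2) ℂ) = W (g₀ * locInfComplex hw M) := by
    intro M
    have hdet : (M : Matrix (Fin 2) (Fin 2) ℂ).det ≠ 0 := by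
      have := (Matrix.GeneralLinearGroup.det M).ne_zero
      rwa [Matrix.GeneralLinearGroup.val_det_apply] at this
    rw [hΨdef]
    simp only [dif_pos hdet]
    congr 3
    exact Units.ext rfl
  have hΨ : ∀ M : Matrix (Fin 2) (Fin 2) ℂ, M.det ≠ 0 → Ψ M = f (jpt M) := by
    intro M hM
    obtain ⟨x, y, ρ, hy, hρ, u, hu, hMeq, hj⟩ := hI (Matrix.GeneralLinearGroup.mkOfDetNeZero M hM)
    have h1 := hΨG (Matrix.GeneralLinearGroup.mkOfDetNeZero M hM)
    have hcoe : ((Matrix.GeneralLinearGroup.mkOfDetNeZero M hM : GL (Fin 2) ℂ) :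
        Matrix (Fin 2) (Fin 2) ℂ) = M := rfl
    rw [hcoe] at h1 hj
    rw [h1, hj, hMeq, map_mul, map_mul, ← mul_assoc, ← mul_assoc,
      hk _ (isArchCompact_locInfComplex hw u hu),
      hsc _ (isArchPosScalar_locInfComplex hw _ ρ hρ (coe_scalarU _ _)), hfW x y hy]
  have hγdet : (γ : Matrix (Fin 2) (Fin 2) ℂ).det ≠ 0 := by
    have := (Matrix.GeneralLinearGroup.det γ).ne_zero
    rwa [Matrix.GeneralLinearGroup.val_det_apply] at this
  have key := frameMVP_euler470 hf Ψ hΨ (γ : Matrix (Fin 2) (Fin 2) ℂ) hγdet hd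
  rw [hΨG γ, ← hg] at key
  rw [← key]
  congr 1
  funext α
  congr 1
  funext β
  have hYeq : Y α β = locInfComplex hw (eulerU α β d) :=
    eq_locInfComplex hw (hY α β).1 (eulerU α β d) ((hY α β).2.trans (coe_eulerU α β d).symm)
  have hmat : (γ : Matrix (Fin 2) (Fin 2) ℂ) * (rotZ470 α * rotY470 β * torus470 d)
      = ((γ * eulerU α β d : GL (Fin 2) ℂ) : Matrix (Fin 2) (Fin 2) ℂ) := by
    rw [Units.val_mul, coe_eulerU]
    rfl
  rw [hmat, hΨG, map_mul, ← mul_assoc, ← hg, hYeq]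

end Fermat.Agent.LT.A2.H416
end
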