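import Fermat.Agent.LT.A2.H416.Shape

/-!
# Row LT, tower A2, leaf A2.03.7 WHIT-MEAN (helper416): the orbital integral at a complex place

OFF-MAIN.
* `intT_translate416`: translation invariance of the integral over `T¹(𝔸_K)` (`IsMeasured.inv`);
* `integrableOn_orbI416`: integrability of the orbital integrand (`orb_dom`, `diagA`);
* `bessel_orbital416`: from `BesselInvC`, the orbital integral
  `J(y) = ∫_{T¹} F g₀ (m m₁) (√y e₁) χT(m m₁) dμT(m)` is twice differentiable on `y > 0` and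
  satisfies `y J'' + J' - 4 (2π|c|)² y J = 0`.
-/

set_option autoImplicit false
set_option linter.unusedSectionVars false
set_option linter.style.haveILetI false
open IsDedekindDomain NumberField AutomorphicForm MeasureTheory
open scoped MatrixGroups Topology Classical
noncomputable section
namespace Fermat.Agent.LT.A2.H416
open Fermat.Agent.LT.H130 Fermat.Agent.LT.H556 Fermat.Agent.LT.A2 Fermat.Agent.LT.H470
open Fermat.Agent.LT.T8.H864 Fermat.Agent.LT.H556.T0 Fermat.Agent.LT.A2.H971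

variable {K : Type} [Field K] [NumberField K]

/-! ## Translation invariance of the torus integral -/

theorem map_mulLeft_μT416 (D : KData K) (hgood : D.Good) {m' : A0.G K}
    (hm' : InTorus1 D.t D.n m') :
    @Measure.map (A0.G K) (A0.G K) (borel (A0.G K)) (borel (A0.G K)) (fun m => m' * m) D.μT
      = D.μT := by
  letI : MeasurableSpace (A0.G K) := borel (A0.G K)
  haveI : BorelSpace (A0.G K) := ⟨rfl⟩
  have hmeas : Measurable fun m : A0.G K => m' * m := (continuous_const.mul continuous_id).measurable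
  refine Measure.ext fun S hS => ?_
  rw [Measure.map_apply hmeas hS]
  have hpre : (fun m : A0.G K => m' * m) ⁻¹' S = (fun m : A0.G K => m'⁻¹ * m) '' S := by
    ext x
    constructor
    · intro hx
      exact ⟨m' * x, hx, by simp⟩
    · rintro ⟨y, hy, rfl⟩
      show m' * (m'⁻¹ * y) ∈ S
      rw [mul_inv_cancel_left]
      exact hy
  rw [hpre]
  exact hgood.measured.inv m'⁻¹ (inTorus1_inv416 hm') S

/-- **Translation invariance** of the integral over `T¹(𝔸_K)`. -/
theorem intT_translate416 (D : KData K) (hgood : D.Good) {m' : A0.G K}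
    (hm' : InTorus1 D.t D.n m') (f : A0.G K → ℂ) :
    D.intT {m | InTorus1 D.t D.n m} (fun m => f (m' * m))
      = D.intT {m | InTorus1 D.t D.n m} f := by
  letI : MeasurableSpace (A0.G K) := borel (A0.G K)
  haveI : BorelSpace (A0.G K) := ⟨rfl⟩
  have hemb : MeasurableEmbedding fun m : A0.G K => m' * m :=
    (Homeomorph.mulLeft m').measurableEmbedding
  have hpre : (fun m : A0.G K => m' * m) ⁻¹' {m | InTorus1 D.t D.n m}
      = {m | InTorus1 D.t D.n m} := by
    ext x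
    constructor
    · intro hx
      have h := inTorus1_mul416 (inTorus1_inv416 hm') hx
      rwa [inv_mul_cancel_left] at h
    · intro hx
      exact inTorus1_mul416 hm' hx
  have h := hemb.setIntegral_map (μ := D.μT) f {m | InTorus1 D.t D.n m}
  rw [map_mulLeft_μT416 D hgood hm', hpre] at h
  exact h.symm


/-! ## Measurability and integrability of the orbital integrand -/

theorem continuousOn_orbI416 (D : KData K) (hgood : D.Good) {w : InfinitePlace K}
    (hw : w.IsComplex) {g₀ m₁ : A0.G K} (hadm : Adm D.t D.n g₀ m₁) (s : ℂˣ) :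
    ContinuousOn (orbI D hw g₀ m₁ s) {m | InTorus1 D.t D.n m} := by
  have hcp := hgood.regular.cont_pair (vecE hw s)
  have hχc := hgood.torus.cont
  have hF1 : ContinuousOn (fun m : A0.G K => D.F g₀ (m * m₁) (vecE hw s))
      {m | InTorus1 D.t D.n m} := by
    have hmap : Set.MapsTo (fun m : A0.G K => ((g₀, m * m₁) : A0.G K × A0.G K))
        {m | InTorus1 D.t D.n m} {q : A0.G K × A0.G K | Adm D.t D.n q.1 q.2} :=
      fun m hm => adm_torus1_mul971 hm hadm
    have hcont : Continuous (fun m : A0.G K => ((g₀, m * m₁) : A0.G K × A0.G K)) :=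
      continuous_const.prodMk (continuous_id.mul continuous_const)
    exact hcp.comp hcont.continuousOn hmap
  have hχ1 : ContinuousOn (fun m : A0.G K => D.χT (m * m₁)) {m | InTorus1 D.t D.n m} := by
    have hmap : Set.MapsTo (fun m : A0.G K => m * m₁)
        {m | InTorus1 D.t D.n m} {m | InTorus D.t D.n m} :=
      fun m hm => inTorus_mul971 hm.1 hadm.1
    have hcont : Continuous (fun m : A0.G K => m * m₁) := continuous_id.mul continuous_const
    exact hχc.comp hcont.continuousOn hmap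
  exact hF1.mul hχ1

theorem aestronglyMeasurable_orbI416 (D : KData K) (hT1 : T1.T1Out K) (hgood : D.Good)
    {w : InfinitePlace K} (hw : w.IsComplex) {g₀ m₁ : A0.G K} (hadm : Adm D.t D.n g₀ m₁)
    (s : ℂˣ) :
    @AEStronglyMeasurable (A0.G K) ℂ _ (borel (A0.G K)) (borel (A0.G K)) (orbI D hw g₀ m₁ s)
      (@Measure.restrict (A0.G K) (borel (A0.G K)) D.μT {m | InTorus1 D.t D.n m}) := by
  letI : MeasurableSpace (A0.G K) := borel (A0.G K)
  haveI : BorelSpace (A0.G K) := ⟨rfl⟩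
  exact (continuousOn_orbI416 D hgood hw hadm s).aestronglyMeasurable
    (measurableSet_torus1_416 hT1 D.t D.n)

/-- **Integrability** of the orbital integrand on `T¹(𝔸_K)` (`orb_dom`, `diagA`). -/
theorem integrableOn_orbI416 (D : KData K) (η : (A0.Adl K)ˣ → ℂ) (hT1 : T1.T1Out K)
    (hgood : D.Good) (hstd : WL.IsStd D η) {w : InfinitePlace K} (hw : w.IsComplex)
    {g₀ m₁ : A0.G K} (hadm : Adm D.t D.n g₀ m₁) (s : ℂˣ) :
    @IntegrableOn (A0.G K) ℂ (borel (A0.G K)) _ _ (orbI D hw g₀ m₁ s)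
      {m | InTorus1 D.t D.n m} D.μT := by
  letI : MeasurableSpace (A0.G K) := borel (A0.G K)
  haveI : BorelSpace (A0.G K) := ⟨rfl⟩
  have hmeas := measurableSet_torus1_416 hT1 D.t D.n
  have hdet : Matrix.GeneralLinearGroup.det (locInfComplex hw (dgC s) : A0.G K) = 1 :=
    det_locInfComplex_of_det_one hw (det_dgC s)
  have hadm' : Adm D.t D.n (locInfComplex hw (dgC s) * g₀) m₁ :=
    (adm_mul_left_of_det_one hdet).2 hadm
  obtain ⟨h, hint, hbound⟩ := hstd.orb_dom {((locInfComplex hw (dgC s) * g₀, m₁) :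
    A0.G K × A0.G K)} isCompact_singleton
  have hs0 : 0 < ‖(s : ℂ)‖ ^ 2 := pow_pos (norm_pos_iff.2 s.ne_zero) 2
  have hint' : Integrable (fun m => (‖(s : ℂ)‖ ^ 2)⁻¹ * h m)
      (D.μT.restrict {m | InTorus1 D.t D.n m}) := Integrable.const_mul hint _
  refine Integrable.mono' hint' (aestronglyMeasurable_orbI416 D hT1 hgood hw hadm s) ?_
  refine (ae_restrict_iff' hmeas).2 (Filter.Eventually.of_forall fun m hm => ?_)
  have hb := hbound _ (Set.mem_singleton _) hadm' m hm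
  have hd := hstd.diagA _ _ (isDiagSLA_dgC hw s) g₀ (m * m₁) (1, 0) (adm_torus1_mul971 hm hadm)
  rw [quadChar_cIdl hstd.quad hw s, adNorm_cIdl hw s, one_mul] at hd
  have hb' : ‖D.F (locInfComplex hw (dgC s) * g₀) (m * m₁) (1, 0)‖ ≤ h m := hb
  rw [hd, norm_mul, Complex.norm_real, Real.norm_eq_abs, abs_of_pos hs0] at hb'
  unfold orbI
  rw [norm_mul, norm_torusChar971 hgood.torus (inTorus_mul971 hm.1 hadm.1), mul_one]
  have hv : vecE hw s = (cIdl hw s : A0.Adl K) • ((1 : A0.Adl K), (0 : A0.Adl K)) := rfl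
  rw [hv]
  rw [inv_mul_eq_div, le_div_iff₀ hs0, mul_comm]
  exact hb'


/-! ## The Bessel equation of the orbital integral -/

theorem gE_eq416 (c : ℂ) (y u : ℝ) :
    gE c (y * u) = Complex.exp (-((2 * Real.pi * ‖c‖ * y * u : ℝ) : ℂ)) := by
  unfold gE
  rw [mul_assoc (2 * Real.pi * ‖c‖) y u]

/-- **The orbital integral `J(y)` satisfies the modified Bessel equation**
`y J'' + J' - 4 a² y J = 0`, `a = 2π|c|`. -/
theorem bessel_orbital416 (hB : BesselInvC) (D : KData K) (η : (A0.Adl K)ˣ → ℂ)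
    (hT1 : T1.T1Out K) (hgood : D.Good) (hstd : WL.IsStd D η) {w : InfinitePlace K}
    (hw : w.IsComplex) {c ω₁ ω₂ : ℂ} (hc0 : c ≠ 0) (hs : ω₁ + ω₂ = w.embedding D.t)
    (hp : ω₁ * ω₂ = w.embedding D.n) (hne : ω₁ ≠ ω₂) (hc : CpxAt D w c ω₁ ω₂)
    {g₀ m₁ : A0.G K} (hg₀ : A0.TrivAtInf w g₀) (hm₁ : A0.TrivAtInf w m₁)
    (hadm : Adm D.t D.n g₀ m₁) :
    ∃ J J1 J2 : ℝ → ℂ,
      (∀ (y : ℝ) (hy : 0 < y),
        D.intT {m | InTorus1 D.t D.n m} (orbI D hw g₀ m₁ (sqU y hy)) = J y) ∧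
      (∀ y : ℝ, 0 < y → HasDerivAt J (J1 y) y) ∧
      (∀ y : ℝ, 0 < y → HasDerivAt J1 (J2 y) y) ∧
      ∀ y : ℝ, 0 < y →
        (y : ℂ) * J2 y + J1 y - ((4 * (2 * Real.pi * ‖c‖) ^ 2 * y : ℝ) : ℂ) * J y = 0 := by
  letI : MeasurableSpace (A0.G K) := borel (A0.G K)
  haveI : BorelSpace (A0.G K) := ⟨rfl⟩
  have hmeas := measurableSet_torus1_416 hT1 D.t D.n
  have ha : 0 < 2 * Real.pi * ‖c‖ := by
    have := norm_pos_iff.2 hc0
    positivity
  -- the shape of the integrand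
  have hshape : ∀ (y : ℝ) (hy : 0 < y) (m : A0.G K), InTorus1 D.t D.n m →
      orbI D hw g₀ m₁ (sqU y hy) m = ampA D hw c ω₁ ω₂ g₀ m₁ m
        * Complex.exp (-((2 * Real.pi * ‖c‖ * y * (pS w ω₁ m + pS w ω₂ m) : ℝ) : ℂ)) := by
    intro y hy m hm
    rw [orbI_eq416 D hgood hw hc hg₀ hm₁ hadm hm, norm_sqU_sq, gE_eq416]
  have hA : AEStronglyMeasurable (ampA D hw c ω₁ ω₂ g₀ m₁)
      (D.μT.restrict {m | InTorus1 D.t D.n m}) := by
    have h1 := aestronglyMeasurable_orbI416 D hT1 hgood hw hadm 1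
    have h2 : Continuous fun m : A0.G K =>
        Complex.exp (((2 * Real.pi * ‖c‖ * (pS w ω₁ m + pS w ω₂ m) : ℝ)) : ℂ) :=
      Complex.continuous_exp.comp (Complex.continuous_ofReal.comp
        (continuous_const.mul ((continuous_pS416 w ω₁).add (continuous_pS416 w ω₂))))
    exact h1.mul h2.aestronglyMeasurable
  have hpm : AEMeasurable (pS w ω₁) (D.μT.restrict {m | InTorus1 D.t D.n m}) :=
    (continuous_pS416 w ω₁).measurable.aemeasurable
  have hqm : AEMeasurable (pS w ω₂) (D.μT.restrict {m | InTorus1 D.t D.n m}) :=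
    (continuous_pS416 w ω₂).measurable.aemeasurable
  have hpq : ∀ᵐ m ∂(D.μT.restrict {m | InTorus1 D.t D.n m}),
      0 < pS w ω₁ m ∧ 0 < pS w ω₂ m ∧ pS w ω₁ m * pS w ω₂ m = 1 :=
    (ae_restrict_iff' hmeas).2 (Filter.Eventually.of_forall fun m hm =>
      ⟨(pS_pos_one416 hs hp hm).1, (pS_pos_one416 hs hp hm).2, pS_mul_pS416 hs hp hm⟩)
  have hint : ∀ y : ℝ, 0 < y → Integrable (fun m => ampA D hw c ω₁ ω₂ g₀ m₁ m
      * Complex.exp (-((2 * Real.pi * ‖c‖ * y * (pS w ω₁ m + pS w ω₂ m) : ℝ) : ℂ)))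
      (D.μT.restrict {m | InTorus1 D.t D.n m}) := by
    intro y hy
    have h1 : Integrable (orbI D hw g₀ m₁ (sqU y hy)) (D.μT.restrict {m | InTorus1 D.t D.n m}) :=
      integrableOn_orbI416 D η hT1 hgood hstd hw hadm (sqU y hy)
    refine h1.congr ?_
    exact (ae_restrict_iff' hmeas).2 (Filter.Eventually.of_forall fun m hm => hshape y hy m hm)
  have hJ : ∀ (y : ℝ) (hy : 0 < y),
      D.intT {m | InTorus1 D.t D.n m} (orbI D hw g₀ m₁ (sqU y hy))
        = ∫ m, ampA D hw c ω₁ ω₂ g₀ m₁ m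
          * Complex.exp (-((2 * Real.pi * ‖c‖ * y * (pS w ω₁ m + pS w ω₂ m) : ℝ) : ℂ))
            ∂(D.μT.restrict {m | InTorus1 D.t D.n m}) := by
    intro y hy
    exact setIntegral_congr_fun hmeas (fun m hm => hshape y hy m hm)
  have hinv : ∀ y : ℝ, 0 < y → ∀ r : ℝ, 0 < r →
      ∫ m, ampA D hw c ω₁ ω₂ g₀ m₁ m * Complex.exp (-((2 * Real.pi * ‖c‖ * y
          * (r⁻¹ ^ 2 * pS w ω₁ m + r ^ 2 * pS w ω₂ m) : ℝ) : ℂ))
            ∂(D.μT.restrict {m | InTorus1 D.t D.n m})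
        = ∫ m, ampA D hw c ω₁ ω₂ g₀ m₁ m
          * Complex.exp (-((2 * Real.pi * ‖c‖ * y * (pS w ω₁ m + pS w ω₂ m) : ℝ) : ℂ))
            ∂(D.μT.restrict {m | InTorus1 D.t D.n m}) := by
    intro y hy r hr
    obtain ⟨m', hm', hrot⟩ := orbI_rot416 D hgood hw hs hp hne hc hg₀ hm₁ hadm hr
    rw [← hJ y hy, ← intT_translate416 D hgood hm' (orbI D hw g₀ m₁ (sqU y hy))]
    refine setIntegral_congr_fun hmeas (fun m hm => ?_)
    show _ = orbI D hw g₀ m₁ (sqU y hy) (m' * m)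
    rw [hrot (sqU y hy) m hm, norm_sqU_sq, gE_eq416]
  obtain ⟨J1, J2, h1, h2, h3⟩ := hB (A0.G K) (D.μT.restrict {m | InTorus1 D.t D.n m})
    (2 * Real.pi * ‖c‖) ha (ampA D hw c ω₁ ω₂ g₀ m₁) (pS w ω₁) (pS w ω₂) hA hpm hqm hpq hint hinv
  exact ⟨_, J1, J2, hJ, h1, h2, h3⟩

end Fermat.Agent.LT.A2.H416
end
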