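import Fermat.Agent.LT.A2.H416.Integrand

/-!
# Row LT, tower A2, leaf A2.03.7 WHIT-MEAN (helper416): the shape of the orbital integrand

OFF-MAIN.  For `g₀`, `m₁` trivial at the complex place `w`, `(g₀, m₁)` admissible, `m ∈ T¹(𝔸_K)`:

    F g₀ (m m₁) (s e₁) χT(m m₁) = A(m) · exp(-2π|c| |s|² (p(m) + q(m)))          (`orbI_eq416`)
    F g₀ (m' m m₁) (s e₁) χT(m' m m₁) = A(m) · exp(-2π|c| |s|² (r⁻² p(m) + r² q(m)))  (`orbI_rot416`)

`p = pS w ω₁`, `q = pS w ω₂` the squared absolute values of the split coordinates of `(m⁻¹)_w`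
(`p q = 1` on `T¹`), `m'` the rotation element of parameter `r > 0`.
-/

set_option autoImplicit false
set_option linter.unusedSectionVars false
set_option linter.style.haveILetI false
open IsDedekindDomain NumberField AutomorphicForm MeasureTheory
open scoped MatrixGroups Topology Classical
noncomputable section
namespace Fermat.Agent.LT.A2.H416
open Fermat.Agent.LT.H130 Fermat.Agent.LT.H556 Fermat.Agent.LT.A2 Fermat.Agent.LT.H470
open Fermat.Agent.LT.T8.H864 Fermat.Agent.LT.H556.T0 Fermat.Agent.LT.A2.H971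

variable {K : Type} [Field K] [NumberField K]

/-! ## The roots -/

theorem exists_roots416 {t n : K} (hirr : ∀ x : K, x ^ 2 - t * x + n ≠ 0)
    (w : InfinitePlace K) :
    ∃ ω₁ ω₂ : ℂ, ω₁ + ω₂ = w.embedding t ∧ ω₁ * ω₂ = w.embedding n ∧ ω₁ ≠ ω₂ := by
  have hdisc : t ^ 2 - 4 * n ≠ 0 := by
    intro h
    apply hirr (t / 2)
    field_simp
    linear_combination -h
  have hdisc' : (w.embedding t) ^ 2 - 4 * w.embedding n ≠ 0 := by
    intro h
    apply hdisc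
    apply (w.embedding).injective
    rw [map_zero, map_sub, map_pow, map_mul, map_ofNat, h]
  obtain ⟨s, hs⟩ : ∃ s : ℂ, s ^ 2 = (w.embedding t) ^ 2 - 4 * w.embedding n :=
    IsAlgClosed.exists_pow_nat_eq _ (by norm_num)
  have hs0 : s ≠ 0 := by
    intro h0
    rw [h0] at hs
    exact hdisc' (by rw [← hs]; simp)
  refine ⟨(w.embedding t + s) / 2, (w.embedding t - s) / 2, by ring, ?_, ?_⟩
  · linear_combination (-(1 / 4 : ℂ)) * hs
  · intro h
    apply hs0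
    linear_combination h

/-! ## The split norms -/

/-- The determinant of the complex matrix at `w`. -/
theorem det_infComp416 (w : InfinitePlace K) (g : A0.G K) :
    (A0.infComp w g).det = InfinitePlace.Completion.extensionEmbedding w
      (((Matrix.GeneralLinearGroup.det g : (A0.Adl K)ˣ) : A0.Adl K).1 w) := by
  rw [infComp_eq_infCompHom, ← det_infCompHom416]
  exact ((InfinitePlace.Completion.extensionEmbedding w).map_det _).symm

theorem det_infComp_of_det_one416 (w : InfinitePlace K) {g : A0.G K}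
    (h : Matrix.GeneralLinearGroup.det g = 1) : (A0.infComp w g).det = 1 := by
  rw [det_infComp416, h]
  exact map_one _

/-- `|λ_ω((m⁻¹)_w)|²`. -/
def pS (w : InfinitePlace K) (ω : ℂ) (m : A0.G K) : ℝ := ‖lam ω (A0.infComp w m⁻¹)‖ ^ 2

theorem lam_mul_lam_inv416 {t n : K} {w : InfinitePlace K} {ω₁ ω₂ : ℂ}
    (hs : ω₁ + ω₂ = w.embedding t) (hp : ω₁ * ω₂ = w.embedding n) {m : A0.G K}
    (hm : InTorus1 t n m) :
    lam ω₁ (A0.infComp w m⁻¹) * lam ω₂ (A0.infComp w m⁻¹) = 1 := by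
  have hm' := inTorus1_inv416 hm
  rw [lam_mul_lam416 hs hp (isTorM_infComp416 w hm'.1), det_infComp_of_det_one416 w hm'.2]

theorem pS_mul_pS416 {t n : K} {w : InfinitePlace K} {ω₁ ω₂ : ℂ}
    (hs : ω₁ + ω₂ = w.embedding t) (hp : ω₁ * ω₂ = w.embedding n) {m : A0.G K}
    (hm : InTorus1 t n m) : pS w ω₁ m * pS w ω₂ m = 1 := by
  unfold pS
  rw [← mul_pow, ← norm_mul, lam_mul_lam_inv416 hs hp hm, norm_one, one_pow]

theorem pS_pos_one416 {t n : K} {w : InfinitePlace K} {ω₁ ω₂ : ℂ}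
    (hs : ω₁ + ω₂ = w.embedding t) (hp : ω₁ * ω₂ = w.embedding n) {m : A0.G K}
    (hm : InTorus1 t n m) : 0 < pS w ω₁ m ∧ 0 < pS w ω₂ m := by
  have h := pS_mul_pS416 hs hp hm
  have h1 : 0 ≤ pS w ω₁ m := sq_nonneg _
  have h2 : 0 ≤ pS w ω₂ m := sq_nonneg _
  constructor
  · rcases h1.eq_or_lt with h0 | h0
    · rw [← h0, zero_mul] at h; exact absurd h zero_ne_one
    · exact h0
  · rcases h2.eq_or_lt with h0 | h0
    · rw [← h0, mul_zero] at h; exact absurd h zero_ne_one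
    · exact h0

theorem continuous_infComp_inv416 (w : InfinitePlace K) (i j : Fin 2) :
    Continuous fun m : A0.G K => A0.infComp w m⁻¹ i j := by
  have h1 : Continuous fun m : A0.G K => ((m⁻¹ : A0.G K) : Matrix (Fin 2) (Fin 2) (A0.Adl K)) i j :=
    (continuous_entry971 i j).comp continuous_inv
  have h2 : Continuous fun x : A0.Adl K => x.1 w :=
    (continuous_apply w).comp continuous_fst
  exact (InfinitePlace.Completion.isometry_extensionEmbedding w).continuous.comp (h2.comp h1)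

theorem continuous_pS416 (w : InfinitePlace K) (ω : ℂ) : Continuous (pS w ω) := by
  unfold pS lam
  exact (((continuous_infComp_inv416 w 0 0).add
    (continuous_const.mul (continuous_infComp_inv416 w 1 0))).norm).pow 2

/-- The split norms of a translate by a rotation element. -/
theorem pS_mul416 {t n : K} {w : InfinitePlace K} {ω : ℂ}
    (hω : ω ^ 2 = w.embedding t * ω - w.embedding n) {m m' : A0.G K}
    (hm : InTorus t n m) (hm' : InTorus t n m') :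
    pS w ω (m' * m) = pS w ω m' * pS w ω m := by
  unfold pS
  rw [mul_inv_rev, infComp_mul,
    lam_mul416 hω (isTorM_infComp416 w (inTorus_inv416 hm)) (isTorM_infComp416 w (inTorus_inv416 hm')),
    norm_mul, mul_pow, mul_comm]


/-! ## The shape of the orbital integrand -/

/-- `exp(-2π|c| u)`. -/
def gE (c : ℂ) (u : ℝ) : ℂ := Complex.exp (-((2 * Real.pi * ‖c‖ * u : ℝ) : ℂ))

theorem gE_mul_exp (c : ℂ) (u : ℝ) :
    gE c u * Complex.exp (((2 * Real.pi * ‖c‖ * u : ℝ) : ℂ)) = 1 := by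
  unfold gE
  rw [← Complex.exp_add, neg_add_cancel, Complex.exp_zero]

theorem gauss_inv416 {w : InfinitePlace K} (hw : w.IsComplex) (c ω₁ ω₂ : ℂ) (m : A0.G K)
    (s : ℂˣ) :
    WL.gauss w c ω₁ ω₂ (actV m⁻¹ (vecE hw s))
      = gE c (‖(s : ℂ)‖ ^ 2 * (pS w ω₁ m + pS w ω₂ m)) :=
  gauss_actV416 hw c ω₁ ω₂ m⁻¹ s

theorem isLocalAtInf_one416 (w : InfinitePlace K) : A0.IsLocalAtInf w (1 : A0.G K) :=
  ⟨fun w' _ => (trivAtInf_iff_hom w' 1).2 (map_one _),
    fun v => (trivAtFin_iff_hom v 1).2 (map_one _)⟩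

/-- The amplitude `A(m)`. -/
def ampA (D : KData K) {w : InfinitePlace K} (hw : w.IsComplex) (c ω₁ ω₂ : ℂ) (g₀ m₁ : A0.G K)
    (m : A0.G K) : ℂ :=
  orbI D hw g₀ m₁ 1 m
    * Complex.exp (((2 * Real.pi * ‖c‖ * (pS w ω₁ m + pS w ω₂ m) : ℝ)) : ℂ)

/-- **The orbital integrand** is `A(m) exp(-2π|c| |s|² (p(m) + q(m)))`. -/
theorem orbI_eq416 (D : KData K) (hgood : D.Good) {w : InfinitePlace K} (hw : w.IsComplex)
    {c ω₁ ω₂ : ℂ} (hc : CpxAt D w c ω₁ ω₂) {g₀ m₁ : A0.G K} (hg₀ : A0.TrivAtInf w g₀)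
    (hm₁ : A0.TrivAtInf w m₁) (hadm : Adm D.t D.n g₀ m₁) {m : A0.G K}
    (hm : InTorus1 D.t D.n m) (s : ℂˣ) :
    orbI D hw g₀ m₁ s m
      = ampA D hw c ω₁ ω₂ g₀ m₁ m * gE c (‖(s : ℂ)‖ ^ 2 * (pS w ω₁ m + pS w ω₂ m)) := by
  have key := orbI_rel416 D hgood hw hc hg₀ hm₁ hadm hm (inTorus1_one416 D.t D.n)
    (isLocalAtInf_one416 w) s 1
  rw [one_mul, hgood.torus.one, mul_one, gauss_inv416, gauss_inv416] at key
  have h1 : ‖((1 : ℂˣ) : ℂ)‖ ^ 2 * (pS w ω₁ m + pS w ω₂ m) = pS w ω₁ m + pS w ω₂ m := by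
    simp
  rw [h1] at key
  have hE := gE_mul_exp c (pS w ω₁ m + pS w ω₂ m)
  unfold ampA
  linear_combination
    (Complex.exp (((2 * Real.pi * ‖c‖ * (pS w ω₁ m + pS w ω₂ m) : ℝ)) : ℂ)) * key
      - orbI D hw g₀ m₁ s m * hE

/-- **The orbital integrand at a rotated point.** -/
theorem orbI_rot416 (D : KData K) (hgood : D.Good) {w : InfinitePlace K} (hw : w.IsComplex)
    {c ω₁ ω₂ : ℂ} (hs : ω₁ + ω₂ = w.embedding D.t) (hp : ω₁ * ω₂ = w.embedding D.n)
    (hne : ω₁ ≠ ω₂) (hc : CpxAt D w c ω₁ ω₂) {g₀ m₁ : A0.G K} (hg₀ : A0.TrivAtInf w g₀)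
    (hm₁ : A0.TrivAtInf w m₁) (hadm : Adm D.t D.n g₀ m₁) {r : ℝ} (hr : 0 < r) :
    ∃ m' : A0.G K, InTorus1 D.t D.n m' ∧ ∀ (s : ℂˣ) (m : A0.G K), InTorus1 D.t D.n m →
      orbI D hw g₀ m₁ s (m' * m)
        = ampA D hw c ω₁ ω₂ g₀ m₁ m
          * gE c (‖(s : ℂ)‖ ^ 2 * (r⁻¹ ^ 2 * pS w ω₁ m + r ^ 2 * pS w ω₂ m)) := by
  obtain ⟨m', hm', hloc, hχ, hl1, hl2⟩ := exists_rot416 hgood.torus hw hs hp hne hr
  have hω := sq_root416 hs hp
  have hp1 : pS w ω₁ m' = r⁻¹ ^ 2 := by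
    unfold pS
    rw [hl1, Complex.norm_real, Real.norm_eq_abs, sq_abs]
  have hp2 : pS w ω₂ m' = r ^ 2 := by
    unfold pS
    rw [hl2, Complex.norm_real, Real.norm_eq_abs, sq_abs]
  refine ⟨m', hm', fun s m hm => ?_⟩
  have key := orbI_rel416 D hgood hw hc hg₀ hm₁ hadm hm hm' hloc s 1
  rw [hχ, mul_one, gauss_inv416, gauss_inv416, pS_mul416 hω.1 hm.1 hm'.1,
    pS_mul416 hω.2 hm.1 hm'.1, hp1, hp2] at key
  have h1 : ‖((1 : ℂˣ) : ℂ)‖ ^ 2 * (pS w ω₁ m + pS w ω₂ m) = pS w ω₁ m + pS w ω₂ m := by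
    simp
  rw [h1] at key
  have hE := gE_mul_exp c (pS w ω₁ m + pS w ω₂ m)
  unfold ampA
  linear_combination
    (Complex.exp (((2 * Real.pi * ‖c‖ * (pS w ω₁ m + pS w ω₂ m) : ℝ)) : ℂ)) * key
      - orbI D hw g₀ m₁ s (m' * m) * hE

end Fermat.Agent.LT.A2.H416
end
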