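import Fermat.Agent.LT.A2.H416.MeanSpec
import Fermat.Agent.LT.A2.H971.WhitCont

/-!
# Row LT, tower A2, leaf A2.03.7 WHIT-MEAN (helper416): the torus at a complex place

OFF-MAIN.  Torus algebra: inverse, split coordinates `lam ω M = M₀₀ + ω M₁₀` of a torus matrix
(multiplicative), components of adelic torus elements at a complex place.
-/

set_option autoImplicit false

open IsDedekindDomain NumberField AutomorphicForm MeasureTheory
open scoped MatrixGroups Topology

noncomputable section

namespace Fermat.Agent.LT.A2.H416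

open Fermat.Agent.LT.H130 Fermat.Agent.LT.H556 Fermat.Agent.LT.A2 Fermat.Agent.LT.H470
open Fermat.Agent.LT.T8.H864 Fermat.Agent.LT.H556.T0 Fermat.Agent.LT.A2.H971

/-! ## Torus matrices over a commutative ring -/

section Ring

variable {R : Type*} [CommRing R]

/-- `M` is a torus matrix: `M = torMat t n (M 0 0) (M 1 0)`. -/
def IsTorM (t n : R) (M : Matrix (Fin 2) (Fin 2) R) : Prop :=
  M 0 1 = -(n * M 1 0) ∧ M 1 1 = M 0 0 + t * M 1 0

theorem isTorM_one416 (t n : R) : IsTorM t n (1 : Matrix (Fin 2) (Fin 2) R) := by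
  constructor <;> simp

theorem isTorM_mul416 {t n : R} {M M' : Matrix (Fin 2) (Fin 2) R} (h : IsTorM t n M)
    (h' : IsTorM t n M') : IsTorM t n (M * M') := by
  obtain ⟨h1, h2⟩ := h
  obtain ⟨h1', h2'⟩ := h'
  constructor
  · simp only [Matrix.mul_apply, Fin.sum_univ_two, h1, h2, h1', h2']
    ring
  · simp only [Matrix.mul_apply, Fin.sum_univ_two, h1, h2, h1', h2']
    ring

theorem isTorM_torMat416 (t n a b : R) : IsTorM t n (torMat t n a b) := by
  constructor <;> simp [torMat]

/-- The adjugate of a torus matrix is a torus matrix. -/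
theorem isTorM_adjugate416 {t n : R} {M : Matrix (Fin 2) (Fin 2) R} (h : IsTorM t n M) :
    IsTorM t n M.adjugate := by
  obtain ⟨h1, h2⟩ := h
  rw [Matrix.adjugate_fin_two]
  constructor
  · simp [h1]
  · simp [h2]

theorem isTorM_smul416 {t n : R} {M : Matrix (Fin 2) (Fin 2) R} (h : IsTorM t n M) (c : R) :
    IsTorM t n (c • M) := by
  obtain ⟨h1, h2⟩ := h
  constructor
  · simp only [Matrix.smul_apply, smul_eq_mul, h1]; ring
  · simp only [Matrix.smul_apply, smul_eq_mul, h2]; ring

/-- The split coordinate `M₀₀ + ω M₁₀`. -/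
def lam (ω : R) (M : Matrix (Fin 2) (Fin 2) R) : R := M 0 0 + ω * M 1 0

theorem lam_one416 (ω : R) : lam ω (1 : Matrix (Fin 2) (Fin 2) R) = 1 := by
  simp [lam]

/-- The split coordinate is multiplicative on the torus matrices. -/
theorem lam_mul416 {t n ω : R} (hω : ω ^ 2 = t * ω - n) {M M' : Matrix (Fin 2) (Fin 2) R}
    (h : IsTorM t n M) (_h' : IsTorM t n M') : lam ω (M * M') = lam ω M * lam ω M' := by
  obtain ⟨h1, h2⟩ := h
  simp only [lam, Matrix.mul_apply, Fin.sum_univ_two, h1, h2]
  linear_combination (-(M 1 0 * M' 1 0)) * hω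

/-- The product of the two split coordinates is the determinant. -/
theorem lam_mul_lam416 {t n ω₁ ω₂ : R} (hs : ω₁ + ω₂ = t) (hp : ω₁ * ω₂ = n)
    {M : Matrix (Fin 2) (Fin 2) R} (h : IsTorM t n M) : lam ω₁ M * lam ω₂ M = M.det := by
  obtain ⟨h1, h2⟩ := h
  rw [Matrix.det_fin_two, h1, h2]
  simp only [lam]
  rw [← hs, ← hp]
  ring

theorem sq_root416 {t n ω₁ ω₂ : R} (hs : ω₁ + ω₂ = t) (hp : ω₁ * ω₂ = n) :
    ω₁ ^ 2 = t * ω₁ - n ∧ ω₂ ^ 2 = t * ω₂ - n := by
  rw [← hs, ← hp]
  constructor <;> ring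

end Ring

/-! ## The adelic torus -/

section Adelic

variable {K : Type} [Field K] [NumberField K]

theorem inTorus_iff_isTorM416 (t n : K) (m : A0.G K) :
    InTorus t n m ↔ IsTorM (algebraMap K (A0.Adl K) t) (algebraMap K (A0.Adl K) n)
      (m : Matrix (Fin 2) (Fin 2) (A0.Adl K)) :=
  inTorus_iff971 t n m

/-- The torus is stable under inversion. -/
theorem inTorus_inv416 {t n : K} {m : A0.G K} (h : InTorus t n m) : InTorus t n m⁻¹ := by
  rw [inTorus_iff_isTorM416] at h ⊢
  rw [Matrix.coe_units_inv, Matrix.inv_def]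
  exact isTorM_smul416 (isTorM_adjugate416 h) _

theorem inTorus1_inv416 {t n : K} {m : A0.G K} (h : InTorus1 t n m) : InTorus1 t n m⁻¹ :=
  ⟨inTorus_inv416 h.1, by rw [map_inv, h.2, inv_one]⟩

theorem inTorus1_mul416 {t n : K} {m m' : A0.G K} (h : InTorus1 t n m) (h' : InTorus1 t n m') :
    InTorus1 t n (m * m') :=
  ⟨inTorus_mul971 h.1 h'.1, by rw [map_mul, h.2, h'.2, one_mul]⟩

theorem inTorus1_one416 (t n : K) : InTorus1 t n (1 : A0.G K) :=
  ⟨inTorus_one971 t n, map_one _⟩

theorem inTorus_pow416 {t n : K} {m : A0.G K} (h : InTorus t n m) (k : ℕ) :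
    InTorus t n (m ^ k) := by
  induction k with
  | zero => rw [pow_zero]; exact inTorus_one971 t n
  | succ k ih => rw [pow_succ]; exact inTorus_mul971 ih h

theorem inTorus1_pow416 {t n : K} {m : A0.G K} (h : InTorus1 t n m) (k : ℕ) :
    InTorus1 t n (m ^ k) :=
  ⟨inTorus_pow416 h.1 k, by rw [map_pow, h.2, one_pow]⟩

/-- A torus character is multiplicative on powers. -/
theorem torusChar_pow416 {t n : K} {χT : A0.G K → ℂ} (hχ : IsTorusChar t n χT) {m : A0.G K}
    (h : InTorus t n m) (k : ℕ) : χT (m ^ k) = χT m ^ k := by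
  induction k with
  | zero => rw [pow_zero, pow_zero]; exact hχ.one
  | succ k ih => rw [pow_succ, pow_succ, hχ.mul _ _ (inTorus_pow416 h k) h, ih]

/-- The embedding of `K` at the infinite place `w`, through the adeles. -/
theorem ext_algebraMap416 (w : InfinitePlace K) (x : K) :
    InfinitePlace.Completion.extensionEmbedding w ((algebraMap K (A0.Adl K) x).1 w)
      = w.embedding x := by
  have h := InfinitePlace.Completion.extensionEmbedding_coe (v := w) ((WithAbs.equiv w.1).symm x)
  rw [RingEquiv.apply_symm_apply] at h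
  exact h

/-- The complex matrix at `w` of an element of the torus is a torus matrix. -/
theorem isTorM_infComp416 {t n : K} (w : InfinitePlace K) {m : A0.G K} (h : InTorus t n m) :
    IsTorM (w.embedding t) (w.embedding n) (A0.infComp w m) := by
  rw [inTorus_iff_isTorM416] at h
  obtain ⟨h1, h2⟩ := h
  constructor
  · show InfinitePlace.Completion.extensionEmbedding w
        (((m : Matrix (Fin 2) (Fin 2) (A0.Adl K)) 0 1).1 w) = _
    rw [h1]
    show InfinitePlace.Completion.extensionEmbedding w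
        (-((algebraMap K (A0.Adl K) n).1 w * ((m : Matrix (Fin 2) (Fin 2) (A0.Adl K)) 1 0).1 w))
      = _
    rw [map_neg, map_mul, ext_algebraMap416]
    rfl
  · show InfinitePlace.Completion.extensionEmbedding w
        (((m : Matrix (Fin 2) (Fin 2) (A0.Adl K)) 1 1).1 w) = _
    rw [h2]
    show InfinitePlace.Completion.extensionEmbedding w
        (((m : Matrix (Fin 2) (Fin 2) (A0.Adl K)) 0 0).1 w
          + (algebraMap K (A0.Adl K) t).1 w * ((m : Matrix (Fin 2) (Fin 2) (A0.Adl K)) 1 0).1 w)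
      = _
    rw [map_add, map_mul, ext_algebraMap416]
    rfl

end Adelic

end Fermat.Agent.LT.A2.H416

end
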